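import Fermat.Agent.LT.T7.H736.UpS
import Fermat.Agent.LT.T7.H561.OpsSpec

/-!
# Row LT, tower T7, registry 2152 (helper675): THE CUT OF `BlocksC561` / `OpsC561` (helper561)
# IN CORE FORM (over `K'` alone, on `H29.UpData`)

OFF-MAIN.  Definitions, frozen Props, PROVED tops and bridges.  No hole, nothing assumed.
ADDITIVE (new names only, all ending in `675`, namespace `Fermat.Agent.LT.T7.UB675`) to
`T7/H561/SpecUpSpec.lean` 383e6674, `BlocksSpec.lean` 5ceeaa4d, `OpsSpec.lean` 17293f38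
(helper561), `T7/H736/UpS.lean` 98771005 (helper736) and `T7/H29/UpCore.lean` c2d817fc +
`UpCore2.lean` 5e142413 (helper29, the core of record; ruling of the architect helper797, 15:58Z).

The statements are those of helper561 VERBATIM after the renaming `Dt ↦ U`
(`L2Data K K'` ↦ `H29.UpData K'`, `IsL2Data ℓ Φ Dt` ↦ `H29.IsUpData ℓ Φ U`; the hypotheses
`IsCycExt K K' ℓ`, `ℓ ≠ 2`, `TotCplx K`, `ConstOnFibres K Φ` ↦ `ℓ.Prime`, `TotCplx K'`; the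
`σ`-invariance of `Φ` outside `S'` is the field `H29.IsUpData.const`).  Names: `X561 ↦ XU675`,
`XC561 ↦ XUC675`.  The one-field objects of helper561 (`Blocks561`, `IsIwBlock561`, `trOp561`,
`AtomsC561`, `ChangeC561`) are used as they are.

    blocksUC_of675 : BlocksAsmUC675 K' → WSpecUC675 K' → CompleteUC675 K' → SigmaUC675 K'
                       → OpsUC675 K' → PhiUC675 K' → OffWUC675 K' → BlocksUC675 K'
    opsUC_of675    : IwSysExistsUC675 K' → OpsEigUC675 K' → OpsRelUC675 K' → OpsCommUC675 K'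
                       → OpsPerUC675 K' → OpsAdjUC675 K' → OpsSigUC675 K' → OpsLinkUC675 K'
                       → BadOpUC675 K' → OpsUC675 K'
    xC561_of_U675  : XUC675 K' → H561.XC561 K K'     (THE LEAVES OF helper561 FOLLOW, for
        X = Blocks, WSpec, Complete, Sigma, Ops, Phi, OffW, IwSysExists, OpsEig, OpsRel,
        OpsComm, OpsPer, OpsAdj, OpsSig, OpsLink, BadOp)

So the owner of a leaf proves the CORE form (the same proof after the renaming): the cyclic leaf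
follows by the bridge and the quadratic step `F / ℚ` needs no second proof.  The assembly leaf
`BlocksAsmC561` is an implication between nodes: its core form `BlocksAsmUC675` has the same
proof after the renaming (no bridge).
-/

set_option autoImplicit false

open AutomorphicForm IsDedekindDomain NumberField MeasureTheory
open scoped ComplexConjugate Matrix

noncomputable section

namespace Fermat.Agent.LT.T7.UB675

open Fermat.Agent.LT.H556 Fermat.Agent.LT.H556.A0 Fermat.Agent.LT.T7 Fermat.Agent.LT.T7.H561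

attribute [local instance] Fermat.Agent.LT.T5.instMeasurableSpaceG

/-! ## 1. The structures, on the upstairs data -/

section Defs

variable {K' : Type} [Field K'] [NumberField K']

/-- **The base level is `σ`-stable** (see the header: ruling needed). -/
def BaseStableU675 (U : H29.UpData K') : Prop :=
  ∀ u : G K', InLevelGroup U.𝔑₀ u ↔ InLevelGroup U.𝔑₀ (U.s.onG u)

/-- `v` is an orthonormal basis of the class of `C`: the invariant cusp functions of the base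
level with joint eigen-data `C` outside `S'`. -/
structure IsClassBasisU675 (U : H29.UpData K') (ℓ : ℕ) (C : EigData K') (n : ℕ)
    (v : Fin n → G K' → ℂ) : Prop where
  eig : ∀ a, IsEigFn U.𝔑₀ U.R'.r ℓ U.o (v a) C
  orth : ∀ a b, T5.innerD U.R'.μ U.R'.F (v a) (v b) = if a = b then 1 else 0
  span : ∀ (ψ : G K' → ℂ) (C' : EigData K'), IsEigFn U.𝔑₀ U.R'.r ℓ U.o ψ C' →
    C'.AgreeOut U.S' C → ∃ c : Fin n → ℂ, ∀ x : G K', ψ x = ∑ a, c a * v a x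

/-- The properties of the blocks for the bad element `g` in the complete orthonormal sequence
`e₀`. -/
structure IsBlocksU675 (ℓ : ℕ) (Φ : HeckeEigensystem K' ℂ) (U : H29.UpData K') (g : G K')
    (e₀ : ℕ → G K' → ℂ) (𝔅 : Blocks561 K') : Prop where
  onb : T5.IsCuspONB (U.𝔑 g) T5.trivType U.R'.r U.R'.μ U.R'.F e₀
  inj : ∀ (i : 𝔅.ι) (a : Fin (𝔅.n i)) (i' : 𝔅.ι) (a' : Fin (𝔅.n i')),
    𝔅.idx i a = 𝔅.idx i' a' → (⟨i, a⟩ : Σ i, Fin (𝔅.n i)) = ⟨i', a'⟩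
  unitary : ∀ i, (𝔅.C i).IsUnitaryOut U.S'
  distinct : ∀ i i', (𝔅.C i).AgreeOut U.S' (𝔅.C i') → i = i'
  basis : ∀ i, IsClassBasisU675 U ℓ (𝔅.C i) (𝔅.n i) (fun a => e₀ (𝔅.idx i a))
  phi : ∃ i, (𝔅.C i).AgreeOut U.S' (eigOf Φ)
  iw : ∀ i, IsIwBlock561 ℓ ((Ideal.absNorm (U.o 0).asIdeal : ℕ) : ℝ)
    (𝔅.A i) (𝔅.B i) (𝔅.S i) (𝔅.ρ i)
  /-- the matrix coefficients inside a block -/
  coeff : ∀ X : List (Gen K'), (∀ x ∈ X, x.Out U.S') →
    ∀ (k : ℤ) (m : ℕ) (i : 𝔅.ι) (a b : Fin (𝔅.n i)),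
      T5.innerD U.R'.μ U.R'.F
          (T5.Rconv U.R'.μ (U.φ' g X k m) (T5.Rsig U.s (e₀ (𝔅.idx i a))))
          (e₀ (𝔅.idx i b))
        = wordEv X (𝔅.C i)
          * (𝔅.B i * (𝔅.ρ i 0 * 𝔅.ρ i 0) ^ k
              * (((Real.sqrt ((Ideal.absNorm (U.o 0).asIdeal : ℕ) : ℝ) : ℝ) : ℂ)⁻¹
                  • (𝔅.S i 0 * 𝔅.ρ i 0)) ^ m
              * 𝔅.A i) b a
  /-- the diagonal coefficients outside the blocks vanish -/
  off : ∀ X : List (Gen K'), (∀ x ∈ X, x.Out U.S') → ∀ (k : ℤ) (m : ℕ) (j : ℕ),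
    (∀ (i : 𝔅.ι) (a : Fin (𝔅.n i)), 𝔅.idx i a ≠ j) →
    T5.diagCoeff U.s U.R'.μ U.R'.F (U.φ' g X k m) (e₀ j) = 0

/-- **The spectrum of the invariant cusp functions of the base level**: classes `i : ι` with
eigen-data `C i` and orthonormal bases `v i`. -/
structure IsWSpecU675 (U : H29.UpData K') (ℓ : ℕ) (ι : Type) (n : ι → ℕ) (C : ι → EigData K')
    (v : (i : ι) → Fin (n i) → G K' → ℂ) : Prop where
  countable : Countable ι
  unitary : ∀ i, (C i).IsUnitaryOut U.S'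
  distinct : ∀ i i', (C i).AgreeOut U.S' (C i') → i = i'
  basis : ∀ i, IsClassBasisU675 U ℓ (C i) (n i) (v i)
  orth : ∀ (i i' : ι) (a : Fin (n i)) (a' : Fin (n i')), i ≠ i' →
    T5.innerD U.R'.μ U.R'.F (v i a) (v i' a') = 0
  complete : ∀ ψ : G K' → ℂ, IsWFn U.𝔑₀ U.R'.r ℓ U.o ψ →
    HasSum (fun p : Σ i, Fin (n i) => ‖T5.innerD U.R'.μ U.R'.F ψ (v p.1 p.2)‖ ^ 2)
      (T5.innerD U.R'.μ U.R'.F ψ ψ).re
  cover : ∀ (ψ : G K' → ℂ) (C' : EigData K'), IsEigFn U.𝔑₀ U.R'.r ℓ U.o ψ C' →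
    (∃ x : G K', ψ x ≠ 0) → ∃ i, C'.AgreeOut U.S' (C i)

/-- **The operators on the invariant cusp functions of the base level**: `S_j = cosetOp (Hs j)`,
`ρ_j = trOp561 (ω j)` along the orbit, `B = cosetOp Hg` at the bad places. -/
structure IsWOpsU675 (U : H29.UpData K') (ℓ : ℕ) (g : G K') (Hs : ℕ → Finset (G K'))
    (ω : ℕ → G K') (Hg : Finset (G K')) : Prop where
  S_eig : ∀ (j : ℕ) (ψ : G K' → ℂ) (C : EigData K'), IsEigFn U.𝔑₀ U.R'.r ℓ U.o ψ C →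
    IsEigFn U.𝔑₀ U.R'.r ℓ U.o (cosetOp (Hs j) ψ) C
  ρ_eig : ∀ (j : ℕ) (ψ : G K' → ℂ) (C : EigData K'), IsEigFn U.𝔑₀ U.R'.r ℓ U.o ψ C →
    IsEigFn U.𝔑₀ U.R'.r ℓ U.o (trOp561 (ω j) ψ) C
  B_eig : ∀ (ψ : G K' → ℂ) (C : EigData K'), IsEigFn U.𝔑₀ U.R'.r ℓ U.o ψ C →
    IsEigFn U.𝔑₀ U.R'.r ℓ U.o (cosetOp Hg ψ) C
  S_quad : ∀ (j : ℕ) (ψ : G K' → ℂ), IsWFn U.𝔑₀ U.R'.r ℓ U.o ψ → ∀ x : G K',
    cosetOp (Hs j) (cosetOp (Hs j) ψ) x
      = (((Ideal.absNorm (U.o 0).asIdeal : ℕ) : ℂ) - 1) * cosetOp (Hs j) ψ x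
        + ((Ideal.absNorm (U.o 0).asIdeal : ℕ) : ℂ) * ψ x
  ρ_central : ∀ (j : ℕ) (ψ : G K' → ℂ), IsWFn U.𝔑₀ U.R'.r ℓ U.o ψ → ∀ x : G K',
    trOp561 (ω j) (trOp561 (ω j) (cosetOp (Hs j) ψ)) x
      = cosetOp (Hs j) (trOp561 (ω j) (trOp561 (ω j) ψ)) x
  comm_SS : ∀ j j' : ℕ, j < ℓ → j' < ℓ → j ≠ j' →
    ∀ ψ : G K' → ℂ, IsWFn U.𝔑₀ U.R'.r ℓ U.o ψ → ∀ x : G K',
      cosetOp (Hs j) (cosetOp (Hs j') ψ) x = cosetOp (Hs j') (cosetOp (Hs j) ψ) x
  comm_Sρ : ∀ j j' : ℕ, j < ℓ → j' < ℓ → j ≠ j' →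
    ∀ ψ : G K' → ℂ, IsWFn U.𝔑₀ U.R'.r ℓ U.o ψ → ∀ x : G K',
      cosetOp (Hs j) (trOp561 (ω j') ψ) x = trOp561 (ω j') (cosetOp (Hs j) ψ) x
  comm_ρρ : ∀ j j' : ℕ, j < ℓ → j' < ℓ → j ≠ j' →
    ∀ ψ : G K' → ℂ, IsWFn U.𝔑₀ U.R'.r ℓ U.o ψ → ∀ x : G K',
      trOp561 (ω j) (trOp561 (ω j') ψ) x = trOp561 (ω j') (trOp561 (ω j) ψ) x
  per_S : ∀ (j : ℕ) (ψ : G K' → ℂ), IsWFn U.𝔑₀ U.R'.r ℓ U.o ψ → ∀ x : G K',
    cosetOp (Hs (j + ℓ)) ψ x = cosetOp (Hs j) ψ x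
  per_ρ : ∀ (j : ℕ) (ψ : G K' → ℂ), IsWFn U.𝔑₀ U.R'.r ℓ U.o ψ → ∀ x : G K',
    trOp561 (ω (j + ℓ)) ψ x = trOp561 (ω j) ψ x
  B_S : ∀ (j : ℕ) (ψ : G K' → ℂ), IsWFn U.𝔑₀ U.R'.r ℓ U.o ψ → ∀ x : G K',
    cosetOp Hg (cosetOp (Hs j) ψ) x = cosetOp (Hs j) (cosetOp Hg ψ) x
  B_ρ : ∀ (j : ℕ) (ψ : G K' → ℂ), IsWFn U.𝔑₀ U.R'.r ℓ U.o ψ → ∀ x : G K',
    cosetOp Hg (trOp561 (ω j) ψ) x = trOp561 (ω j) (cosetOp Hg ψ) x
  S_adj : ∀ (j : ℕ) (ψ χ : G K' → ℂ), IsWFn U.𝔑₀ U.R'.r ℓ U.o ψ →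
    IsWFn U.𝔑₀ U.R'.r ℓ U.o χ →
    T5.innerD U.R'.μ U.R'.F (cosetOp (Hs j) ψ) χ
      = T5.innerD U.R'.μ U.R'.F ψ (cosetOp (Hs j) χ)
  ρ_iso : ∀ (j : ℕ) (ψ χ : G K' → ℂ), IsWFn U.𝔑₀ U.R'.r ℓ U.o ψ →
    IsWFn U.𝔑₀ U.R'.r ℓ U.o χ →
    T5.innerD U.R'.μ U.R'.F (trOp561 (ω j) ψ) (trOp561 (ω j) χ)
      = T5.innerD U.R'.μ U.R'.F ψ χ
  σ_S : ∀ (j : ℕ) (ψ : G K' → ℂ), IsWFn U.𝔑₀ U.R'.r ℓ U.o ψ → ∀ x : G K',
    T5.Rsig U.s (cosetOp (Hs j) ψ) x = cosetOp (Hs (j + 1)) (T5.Rsig U.s ψ) x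
  σ_ρ : ∀ (j : ℕ) (ψ : G K' → ℂ), IsWFn U.𝔑₀ U.R'.r ℓ U.o ψ → ∀ x : G K',
    T5.Rsig U.s (trOp561 (ω j) ψ) x = trOp561 (ω (j + 1)) (T5.Rsig U.s ψ) x
  dbl : IsDblCosetSystem U.𝔑₀ g Hg
  iwsys : IsIwCosetSystem (U.o 0) ((Hs 0).map (mulRightEmbedding (ω 0)))
  unif : IsScalarUniformizerAt (U.o 0) (ω 0 * ω 0)

/-- The hypotheses of the core node on the upstairs data (core form of `H561.IsSetup561`). -/
structure IsSetupU675 (ℓ : ℕ) (Φ : HeckeEigensystem K' ℂ) (U : H29.UpData K') : Prop where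
  prime : ℓ.Prime
  cplx : TotCplx K'
  cusp : A0.IsCuspAdelicSph0 K' Φ
  data : H29.IsUpData ℓ Φ U

/-- **The explicit systems along the orbit.** -/
structure IsIwSysU675 (U : H29.UpData K') (Hs : ℕ → Finset (G K')) (ω : ℕ → G K') : Prop where
  ω_local : ∀ j, IsLocalAtFin (U.o j) (ω j)
  ω_comp : ∀ j, ∃ c : (U.o j).adicCompletion K', Valued.v c = WithZero.exp (-1 : ℤ) ∧
    finComp (U.o j) (ω j) = !![0, 1; c, 0]
  Hs_card : ∀ j, (Hs j).card = Ideal.absNorm (U.o j).asIdeal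
  Hs_local : ∀ j, ∀ h ∈ Hs j, IsLocalAtFin (U.o j) h
  Hs_comp : ∀ j, ∀ h ∈ Hs j, ∃ a : (U.o j).adicCompletion K',
    a ∈ (U.o j).adicCompletionIntegers K' ∧ finComp (U.o j) h = !![a, 1; 1, 0]
  Hs_inj : ∀ j, ∀ h ∈ Hs j, ∀ h' ∈ Hs j, h ≠ h' → ¬ T5.InIwahori (U.o j) (h⁻¹ * h')

end Defs

/-! ## 2. The nodes and the leaves, core form -/

section Nodes

variable (K' : Type) [Field K'] [NumberField K']

/-- **NODE T7.L2.2.B = BLOCKS.**  See the header.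
Proof (sketch; to be cut).  (1) `T2` (`cuspSpecPlus_closed`, `finite_class130`): the cusp
functions of level `𝔑₀` have an orthonormal basis of joint eigenfunctions of the Hecke operators
outside `S'` and of the sphere means, the classes have finite dimension; the projector on the
functions invariant under the positive scalars at infinity and the Iwahori subgroups along the
orbit commutes with these operators: orthonormal bases of the classes of the INVARIANT cusp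
functions, the eigen-data of a class normalised at the places of `S'` and the radii `d ≤ 0`.
(2) Complete by an orthonormal basis of the orthogonal complement in the cusp functions of level
`𝔑_g` (PROJ-up, `T5.CuspONBExistsC`, Gram--Schmidt).  (3) `R(σ)` preserves the invariant cusp
functions of the base level (`BaseStableU675`, `IsCompData.aut`, orbit) and moves the eigen-data
by `σ` (asset helper930 `T7/H930/RsigOps.lean`); the blocks are the classes with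
`C ∘ σ ∼ C`; the class of `Φ` is one (`ConstOnFibres`, `orbit_good`, `level_le`).  (4) On a
block: OP-up for `ψ = R(σ) e_a`; the operators `[U g U]`, `Z`, `𝒰` preserve the classes; matrices
in the basis of the block.  (5) Outside the blocks: KILL-up and the range of `R(φ')` (in the
invariant functions) for the complement; `R(σ) e ⊥ ` class of `e` for a class which is not
stable.  (6) Iwahori--Hecke relations at `o j`: `S_j` = the operator of `I s I`, `ρ_j` = the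
translation by `!![0, 1; ϖ, 0]`, `I t I = I s I · ω`, `S² = (q-1) S + q`, `ρ²` = the scalar
uniformiser; adjoints for the inner product on the fundamental domain; `R(σ)` moves the place
`o j` to `o (j+1)`. -/
def BlocksUC675 : Prop :=
  ∀ ℓ : ℕ, ℓ.Prime → TotCplx K' →
    ∀ Φ : HeckeEigensystem K' ℂ, A0.IsCuspAdelicSph0 K' Φ →
      ∀ U : H29.UpData K', H29.IsUpData ℓ Φ U → BaseStableU675 U →
      ∀ g : G K', U.IsBad g →
        ∃ (e₀ : ℕ → G K' → ℂ) (𝔅 : Blocks561 K'), IsBlocksU675 ℓ Φ U g e₀ 𝔅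

/-- **LEAF T7.L2.2.B1 = W-SPEC.**
Proof.  `T2.cuspSpecPlus_closed` for the level `𝔑₀` (`𝔑₀ ≠ ⊥`: `level_g` and
`IsCompData.level_ne` for the bad element `1`): an orthonormal complete family of joint
eigenfunctions of EVERY operator of the tower (Hecke operators outside `S'`, sphere means), with
unitary eigen-data; classes of finite dimension (`finite_class130`).  The projector on the
Iwahori invariants along the orbit (a finite average of right translations, `I / U` is finite)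
is self-adjoint, commutes with the operators and maps the class of `C` onto the functions of
`W` in the class; Gram--Schmidt in each class; eigen-data normalised (`0` at the places of `S'`
and the radii `d ≤ 0`) to get `distinct`. -/
def WSpecUC675 : Prop :=
  ∀ ℓ : ℕ, ℓ.Prime → TotCplx K' →
    ∀ Φ : HeckeEigensystem K' ℂ, A0.IsCuspAdelicSph0 K' Φ →
      ∀ U : H29.UpData K', H29.IsUpData ℓ Φ U →
        ∃ (ι : Type) (n : ι → ℕ) (C : ι → EigData K') (v : (i : ι) → Fin (n i) → G K' → ℂ),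
          IsWSpecU675 U ℓ ι n C v

/-- **LEAF T7.L2.2.B2 = COMPLETE.**
Proof.  `W` consists of cusp functions of level `𝔑_g` (`level_g`).  Take a complete orthonormal
sequence `f_k` of level `𝔑_g` (`T5.CuspONBExistsC`, closed in tower T5 / T2), `h_k` =
Gram--Schmidt of `f_k - P f_k` (`P` = PROJ-up); `e₀` = the family `v` (enumerated by
countability) interleaved with `h_k`; Parseval: `‖f‖² = ‖P f‖² + ‖f - P f‖²`. -/
def CompleteUC675 : Prop :=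
  ∀ ℓ : ℕ, ℓ.Prime → TotCplx K' →
    ∀ Φ : HeckeEigensystem K' ℂ, A0.IsCuspAdelicSph0 K' Φ →
      ∀ U : H29.UpData K', H29.IsUpData ℓ Φ U → ∀ g : G K', U.IsBad g →
      ∀ (ι : Type) (n : ι → ℕ) (C : ι → EigData K') (v : (i : ι) → Fin (n i) → G K' → ℂ),
        IsWSpecU675 U ℓ ι n C v →
        ∃ (e₀ : ℕ → G K' → ℂ) (idx : (i : ι) → Fin (n i) → ℕ),
          T5.IsCuspONB (U.𝔑 g) T5.trivType U.R'.r U.R'.μ U.R'.F e₀ ∧
          (∀ (i : ι) (a : Fin (n i)) (i' : ι) (a' : Fin (n i')), idx i a = idx i' a' →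
            (⟨i, a⟩ : Σ i, Fin (n i)) = ⟨i', a'⟩) ∧
          (∀ (i : ι) (a : Fin (n i)), e₀ (idx i a) = v i a) ∧
          ∀ j : ℕ, (∀ (i : ι) (a : Fin (n i)), idx i a ≠ j) →
            ∀ χ : G K' → ℂ, IsWFn U.𝔑₀ U.R'.r ℓ U.o χ →
              T5.innerD U.R'.μ U.R'.F (e₀ j) χ = 0

/-- **LEAF T7.L2.2.B3 = SIGMA.**
Proof.  `R(σ)` preserves the cusp functions of the base level (`BaseStableU675`,
`IsCompData.aut` for the bad element `1`), the invariance under the positive scalars at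
infinity and under the Iwahori subgroups along the orbit (`orbit_rel`, `σ^ℓ = 1`); it moves the
Hecke operators at `w ∉ S'` to those at `σ w ∉ S'` (`mem_S'_g`: `S'` = the places over the
divisors of `𝔫 g`) and the sphere means at `w` to those at `σ w`: `σC C` = the eigen-data moved
by `σ` (asset helper930 `T7/H930/RsigOps.lean`).  The class of `Φ`: `IsL2Data.const`, and `sph0`
at every infinite place. -/
def SigmaUC675 : Prop :=
  ∀ ℓ : ℕ, ℓ.Prime → TotCplx K' →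
    ∀ Φ : HeckeEigensystem K' ℂ, A0.IsCuspAdelicSph0 K' Φ →
      ∀ U : H29.UpData K', H29.IsUpData ℓ Φ U → BaseStableU675 U →
        ∃ σC : EigData K' → EigData K',
          (∀ C C' : EigData K', C.AgreeOut U.S' C' → (σC C).AgreeOut U.S' (σC C')) ∧
          (∀ (ψ : G K' → ℂ) (C : EigData K'), IsEigFn U.𝔑₀ U.R'.r ℓ U.o ψ C →
            IsEigFn U.𝔑₀ U.R'.r ℓ U.o (T5.Rsig U.s ψ) (σC C)) ∧
          (σC (eigOf Φ)).AgreeOut U.S' (eigOf Φ)

/-- **NODE T7.L2.2.B4 = OPS.**  See the header and `IsWOpsU675`.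
Proof (sketch; to be cut: local group theory at `o j` + operators on functions).  At the place
`w = o j` with uniformiser `ϖ`: `I` = the Iwahori subgroup (`T5.InIwahori`), `s = !![0,1;1,0]`,
`ω = !![0,1;ϖ,0]`, `t = !![ϖ,0;0,1] = s ω`, `ω I ω⁻¹ = I`, `ω² = ϖ`,
`I s I = ⨆_{a mod ϖ} !![1,a;0,1] s I` (`q` cosets), `I t I = (I s I) ω`,
`(I s I)(I s I) = I ⊔ I s I` with `1_{IsI} ⋆ 1_{IsI} = (q-1) 1_{IsI} + q 1_I`.  The operators are
finite sums of right translations by elements supported at ONE place of `S'`: they preserve the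
cusp functions, commute with the Hecke operators outside `S'`, the sphere means and the
operators at the other places; adjoints: `∫_F ψ(x h) conj χ(x) = ∫_F ψ(x) conj χ(x h⁻¹)` for
automorphic functions (fundamental domain, ray; T2 `OpsAdjT`), `(I s I)⁻¹ = I s I`; `R(σ) R(h)
= R(σ h) R(σ)` and `σ` maps the Iwahori subgroup at `o j` onto the one at `o (j+1)`. -/
def OpsUC675 : Prop :=
  ∀ ℓ : ℕ, ℓ.Prime → TotCplx K' →
    ∀ Φ : HeckeEigensystem K' ℂ, A0.IsCuspAdelicSph0 K' Φ →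
      ∀ U : H29.UpData K', H29.IsUpData ℓ Φ U → BaseStableU675 U → ∀ g : G K', U.IsBad g →
        ∃ (Hs : ℕ → Finset (G K')) (ω : ℕ → G K') (Hg : Finset (G K')),
          IsWOpsU675 U ℓ g Hs ω Hg

/-- **LEAF T7.L2.2.B5 = PHI.**
Proof.  The form `φ` of `Φ` (`A0.IsSph0CuspFormFor`): of level `Φ.level ⊇ 𝔑₀` (`level_le`),
invariant under `GL₂(𝒪_w)` at the places of the orbit (`orbit_good`), in particular under the
Iwahori subgroups; invariant under the ray generator (a product of positive scalars at the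
infinite places); `MeanValueComplex` = `MeanEig · sph0` (`K'` is totally complex); Hecke
eigenfunction at `v ∤ 𝔑₀` (then `v ∤ Φ.level`). -/
def PhiUC675 : Prop :=
  ∀ ℓ : ℕ, ℓ.Prime → TotCplx K' →
    ∀ Φ : HeckeEigensystem K' ℂ, A0.IsCuspAdelicSph0 K' Φ →
      ∀ U : H29.UpData K', H29.IsUpData ℓ Φ U →
        ∃ ψ : G K' → ℂ, IsEigFn U.𝔑₀ U.R'.r ℓ U.o ψ (eigOf Φ) ∧ ∃ x : G K', ψ x ≠ 0

/-- **LEAF T7.L2.2.B6 = OFF-W.**  If `R(φ' g X k m)` maps the eigenfunctions of `W` into `W`, the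
diagonal coefficient of a cusp function of level `𝔑_g` orthogonal to `W` vanishes.
Proof.  `f = R(σ) e` is a cusp function of level `𝔑_g` (`IsCompData.aut`); `f = f₁ + f₂`,
`f₁ ∈ W`, `f₂ ⊥ W` (PROJ-up); `R(φ') f₂ = 0` (KILL-up); `⟨R(φ') f₁, e⟩ = ⟨f₁, R(φ'*) e⟩`
(adjoint of a convolution operator, T2 `OpsAdjT`) `= ∑_p ⟨f₁, v_p⟩ conj ⟨R(φ'*) e, v_p⟩`
(Parseval in `W`, polarised; `R(φ'*) e` is a cusp function, its component orthogonal to `W`
does not contribute) and `⟨R(φ'*) e, v_p⟩ = ⟨e, R(φ') v_p⟩ = 0`. -/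
def OffWUC675 : Prop :=
  ∀ ℓ : ℕ, ℓ.Prime → TotCplx K' →
    ∀ Φ : HeckeEigensystem K' ℂ, A0.IsCuspAdelicSph0 K' Φ →
      ∀ U : H29.UpData K', H29.IsUpData ℓ Φ U → ∀ g : G K', U.IsBad g →
      ∀ (ι : Type) (n : ι → ℕ) (C : ι → EigData K') (v : (i : ι) → Fin (n i) → G K' → ℂ),
        IsWSpecU675 U ℓ ι n C v →
        (∀ X : List (Gen K'), (∀ x ∈ X, x.Out U.S') → ∀ (k : ℤ) (m : ℕ) (ψ : G K' → ℂ)
          (C' : EigData K'), IsEigFn U.𝔑₀ U.R'.r ℓ U.o ψ C' →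
            IsWFn U.𝔑₀ U.R'.r ℓ U.o (T5.Rconv U.R'.μ (U.φ' g X k m) ψ)) →
        ∀ e : G K' → ℂ, T5.IsCuspFn (U.𝔑 g) T5.trivType U.R'.r e →
          (∀ χ : G K' → ℂ, IsWFn U.𝔑₀ U.R'.r ℓ U.o χ →
            T5.innerD U.R'.μ U.R'.F e χ = 0) →
          ∀ X : List (Gen K'), (∀ x ∈ X, x.Out U.S') → ∀ (k : ℤ) (m : ℕ),
            T5.diagCoeff U.s U.R'.μ U.R'.F (U.φ' g X k m) e = 0

/-- **LEAF T7.L2.2.B7 = BLOCKS-ASSEMBLY.**
Proof.  `ι, n, C, v` from `WSpecUC675`; `e₀, idx` from `CompleteUC675`; `σC` from `SigmaUC675`;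
`Hs, ω, Hg` from `OpsUC675`.  Blocks: `ι' = {i // (σC (C i)).AgreeOut S' (C i)}`.  In a block
every operator `T` among `R(σ)`, `S_j`, `ρ_j`, `B` maps the class into itself (an eigenfunction
for `C'` is one for every `C''` agreeing with `C'` outside `S'`: `mem_S'`, radii `d > 0`), so
`T v_a = ∑_b M_T(b,a) v_b` pointwise with `M_T(b,a) = ⟨T v_a, v_b⟩` (`span`, `orth`, additivity
of the inner product on bounded continuous functions); `M_{T T'} = M_T M_{T'}` (the operators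
are additive: finite sums of translations); `A = M_{R(σ)}`, `B = c_g(C) M_{cosetOp Hg}`,
`S j = M_{S_j}`, `ρ j = M_{ρ_j}`: `IsIwBlock561` from `IsWOpsU675` (`S_adj` gives `Sᴴ = S`,
`ρ_iso` gives `ρᴴ ρ = 1`).  `coeff`: OP-up for `ψ = R(σ) v_a` with `H = (Hs 0) · ω 0`,
`z = ω 0 ²`: `iwOp = q^{-1/2} S₀ ρ₀`, `shiftOp z k = (ρ₀²)^k` (`k ∈ ℤ`; `ρ₀` is invertible on the
class).  `off`: outside the range of `idx`: `OffWUC675` (its hypothesis from OP-up and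
`S_eig`, `ρ_eig`, `B_eig`); in a class which is not stable: `R(φ') R(σ) v_a` is an
eigenfunction for `σC (C i)`, hence `0` or in another class (`cover`, `distinct`), orthogonal
to `v_a` (`orth`).  `phi`: `PhiUC675`, `cover`, `SigmaUC675`. -/
def BlocksAsmUC675 : Prop :=
  WSpecUC675 K' → CompleteUC675 K' → SigmaUC675 K' → OpsUC675 K' → PhiUC675 K' →
    OffWUC675 K' → BlocksUC675 K'

/-- **LEAF B4.1 = IW-SYS-EXISTS.**  Uniformisers exist, the residue field has `N w` elements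
with integral representatives, an adele with one prescribed component (an idele for an
invertible matrix) exists. -/
def IwSysExistsUC675 : Prop :=
  ∀ (ℓ : ℕ) (Φ : HeckeEigensystem K' ℂ) (U : H29.UpData K'), IsSetupU675 ℓ Φ U →
    ∃ (Hs : ℕ → Finset (G K')) (ω : ℕ → G K'), IsIwSysU675 U Hs ω

/-- **LEAF B4.2 = OPS-EIG.**  `S_j` and `ρ_j` preserve the classes.
Proof.  A finite sum of right translations by elements supported at finite places preserves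
continuity, boundedness, the left invariance, the vanishing of the constant term, the
`K_∞`-type, the invariance under the ray generator and the positive scalars at infinity; the
elements commute with the Hecke coset systems at `v ∉ S'` (`orbit_level`: `o j ∈ S'`) and with
the spheres at infinity (sums and integrals commute: continuous integrands).  Level `𝔑₀` and
Iwahori invariance: for `u` in the level group, resp. in the Iwahori subgroups along the orbit,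
`u h = h' u'` with `h ↦ h'` a permutation of `Hs j` (`I s I = ⨆ h I`; the level group at `o j` is
contained in `I` and normal in `GL₂(𝒪)`; `ω` normalises `I`). -/
def OpsEigUC675 : Prop :=
  ∀ (ℓ : ℕ) (Φ : HeckeEigensystem K' ℂ) (U : H29.UpData K'), IsSetupU675 ℓ Φ U →
    ∀ (Hs : ℕ → Finset (G K')) (ω : ℕ → G K'), IsIwSysU675 U Hs ω →
      ∀ (j : ℕ) (ψ : G K' → ℂ) (C : EigData K'), IsEigFn U.𝔑₀ U.R'.r ℓ U.o ψ C →
        IsEigFn U.𝔑₀ U.R'.r ℓ U.o (cosetOp (Hs j) ψ) C ∧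
        IsEigFn U.𝔑₀ U.R'.r ℓ U.o (trOp561 (ω j) ψ) C

/-- **LEAF B4.3 = OPS-REL.**  `S_j² = (q-1) S_j + q` and `ρ_j² S_j = S_j ρ_j²` on `W`
(`q = N (o 0) = N (o j)`: `orbit_rel`).
Proof.  `!![a,1;1,0] !![b,1;1,0] = !![ab+1, a; b, 1]`: in `I` iff `b ∈ 𝔭`, i.e. for ONE `b`;
otherwise in `!![c,1;1,0] I` with `c = a + b⁻¹`, each `c ≠ a` once.  `ω² = ϖ` is central. -/
def OpsRelUC675 : Prop :=
  ∀ (ℓ : ℕ) (Φ : HeckeEigensystem K' ℂ) (U : H29.UpData K'), IsSetupU675 ℓ Φ U →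
    ∀ (Hs : ℕ → Finset (G K')) (ω : ℕ → G K'), IsIwSysU675 U Hs ω →
      ∀ (j : ℕ) (ψ : G K' → ℂ), IsWFn U.𝔑₀ U.R'.r ℓ U.o ψ → ∀ x : G K',
        cosetOp (Hs j) (cosetOp (Hs j) ψ) x
          = (((Ideal.absNorm (U.o 0).asIdeal : ℕ) : ℂ) - 1) * cosetOp (Hs j) ψ x
            + ((Ideal.absNorm (U.o 0).asIdeal : ℕ) : ℂ) * ψ x ∧
        trOp561 (ω j) (trOp561 (ω j) (cosetOp (Hs j) ψ)) x
          = cosetOp (Hs j) (trOp561 (ω j) (trOp561 (ω j) ψ)) x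

/-- **LEAF B4.4 = OPS-COMM.**  The operators at two different places of the orbit commute
(`o j ≠ o j'` for `j ≠ j' < ℓ`: `orbit_ne`, `orbit_rel`; elements supported at different places
commute). -/
def OpsCommUC675 : Prop :=
  ∀ (ℓ : ℕ) (Φ : HeckeEigensystem K' ℂ) (U : H29.UpData K'), IsSetupU675 ℓ Φ U →
    ∀ (Hs : ℕ → Finset (G K')) (ω : ℕ → G K'), IsIwSysU675 U Hs ω →
      ∀ j j' : ℕ, j < ℓ → j' < ℓ → j ≠ j' → ∀ (ψ : G K' → ℂ) (x : G K'),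
        cosetOp (Hs j) (cosetOp (Hs j') ψ) x = cosetOp (Hs j') (cosetOp (Hs j) ψ) x ∧
        cosetOp (Hs j) (trOp561 (ω j') ψ) x = trOp561 (ω j') (cosetOp (Hs j) ψ) x ∧
        trOp561 (ω j) (trOp561 (ω j') ψ) x = trOp561 (ω j') (trOp561 (ω j) ψ) x

/-- **LEAF B4.5 = OPS-PER.**  `o (j + ℓ) = o j` (`σ^ℓ = 1`, asset helper415) and two systems at
the same place define the same operators on `W`. -/
def OpsPerUC675 : Prop :=
  ∀ (ℓ : ℕ) (Φ : HeckeEigensystem K' ℂ) (U : H29.UpData K'), IsSetupU675 ℓ Φ U →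
    ∀ (Hs : ℕ → Finset (G K')) (ω : ℕ → G K'), IsIwSysU675 U Hs ω →
      ∀ (j : ℕ) (ψ : G K' → ℂ), IsWFn U.𝔑₀ U.R'.r ℓ U.o ψ → ∀ x : G K',
        cosetOp (Hs (j + ℓ)) ψ x = cosetOp (Hs j) ψ x ∧
        trOp561 (ω (j + ℓ)) ψ x = trOp561 (ω j) ψ x

/-- **LEAF B4.6 = OPS-ADJ.**  `S_j` is symmetric and `ρ_j` is an isometry on `W`.
Proof.  `⟨R(h) ψ, R(h) χ⟩ = ⟨ψ, χ⟩` for automorphic functions invariant under the ray generator
(T2 `OpsAdjT`: `F h` is a fundamental domain of a translate of the slab, cut and move by powers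
of `r`).  `⟨R(h_a) ψ, χ⟩ = ⟨ψ, R(h_a⁻¹) χ⟩`, `h_a⁻¹ = s x_{-a}`, `R(h_a⁻¹) χ = R(s) χ` on `W`;
`⟨ψ, R(s) χ⟩ = ⟨R(x_b⁻¹) ψ, R(s) χ⟩ = ⟨ψ, R(x_b s) χ⟩` for every `b`: `q ⟨ψ, R(s) χ⟩ = ⟨ψ, S χ⟩`. -/
def OpsAdjUC675 : Prop :=
  ∀ (ℓ : ℕ) (Φ : HeckeEigensystem K' ℂ) (U : H29.UpData K'), IsSetupU675 ℓ Φ U →
    ∀ (Hs : ℕ → Finset (G K')) (ω : ℕ → G K'), IsIwSysU675 U Hs ω →
      ∀ (j : ℕ) (ψ χ : G K' → ℂ), IsWFn U.𝔑₀ U.R'.r ℓ U.o ψ →
        IsWFn U.𝔑₀ U.R'.r ℓ U.o χ →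
        T5.innerD U.R'.μ U.R'.F (cosetOp (Hs j) ψ) χ
          = T5.innerD U.R'.μ U.R'.F ψ (cosetOp (Hs j) χ) ∧
        T5.innerD U.R'.μ U.R'.F (trOp561 (ω j) ψ) (trOp561 (ω j) χ)
          = T5.innerD U.R'.μ U.R'.F ψ χ

/-- **LEAF B4.7 = OPS-SIGMA.**  `R(σ) S_j = S_{j+1} R(σ)`, `R(σ) ρ_j = ρ_{j+1} R(σ)` on `W`.
Proof.  `R(σ) R(h) = R(σ h) R(σ)`; `σ (Hs j)`, `σ (ω j)` is a system at `o (j+1)` up to the
Iwahori subgroup (asset helper415: `valued_onG415`, `inIwahori_onG415`, locality); `R(σ) ψ ∈ W`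
(`BaseStableU675`); two systems at the same place define the same operators on `W`. -/
def OpsSigUC675 : Prop :=
  ∀ (ℓ : ℕ) (Φ : HeckeEigensystem K' ℂ) (U : H29.UpData K'), IsSetupU675 ℓ Φ U →
    BaseStableU675 U →
    ∀ (Hs : ℕ → Finset (G K')) (ω : ℕ → G K'), IsIwSysU675 U Hs ω →
      ∀ (j : ℕ) (ψ : G K' → ℂ), IsWFn U.𝔑₀ U.R'.r ℓ U.o ψ → ∀ x : G K',
        T5.Rsig U.s (cosetOp (Hs j) ψ) x = cosetOp (Hs (j + 1)) (T5.Rsig U.s ψ) x ∧
        T5.Rsig U.s (trOp561 (ω j) ψ) x = trOp561 (ω (j + 1)) (T5.Rsig U.s ψ) x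

/-- **LEAF B4.8 = OPS-LINK.**  `!![a,1;1,0] !![0,1;ϖ,0] = !![ϖ,a;0,1] = !![1,a;0,1] !![ϖ,0;0,1]`
is in `I t I`; `ω² = ϖ`. -/
def OpsLinkUC675 : Prop :=
  ∀ (ℓ : ℕ) (Φ : HeckeEigensystem K' ℂ) (U : H29.UpData K'), IsSetupU675 ℓ Φ U →
    ∀ (Hs : ℕ → Finset (G K')) (ω : ℕ → G K'), IsIwSysU675 U Hs ω →
      IsIwCosetSystem (U.o 0) ((Hs 0).map (mulRightEmbedding (ω 0))) ∧
      IsScalarUniformizerAt (U.o 0) (ω 0 * ω 0)

/-- **LEAF B4.9 = BAD-OP.**  The Hecke operator of a bad element: a finite system of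
representatives of `U g U / U` exists (`U = U(𝔑₀)` is compact open in the finite adelic group,
`g` is trivial at infinity), the operator preserves the classes (as in B4.2: `g` is supported at
the places of `S'` outside the orbit) and commutes with the operators along the orbit
(`u h = h' u'` with `u` in the Iwahori subgroups along the orbit, which normalise the level
group). -/
def BadOpUC675 : Prop :=
  ∀ (ℓ : ℕ) (Φ : HeckeEigensystem K' ℂ) (U : H29.UpData K'), IsSetupU675 ℓ Φ U →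
    ∀ g : G K', U.IsBad g →
      ∃ Hg : Finset (G K'), IsDblCosetSystem U.𝔑₀ g Hg ∧
        (∀ (ψ : G K' → ℂ) (C : EigData K'), IsEigFn U.𝔑₀ U.R'.r ℓ U.o ψ C →
          IsEigFn U.𝔑₀ U.R'.r ℓ U.o (cosetOp Hg ψ) C) ∧
        ∀ (Hs : ℕ → Finset (G K')) (ω : ℕ → G K'), IsIwSysU675 U Hs ω →
          ∀ (j : ℕ) (ψ : G K' → ℂ), IsWFn U.𝔑₀ U.R'.r ℓ U.o ψ → ∀ x : G K',
            cosetOp Hg (cosetOp (Hs j) ψ) x = cosetOp (Hs j) (cosetOp Hg ψ) x ∧
            cosetOp Hg (trOp561 (ω j) ψ) x = trOp561 (ω j) (cosetOp Hg ψ) x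

end Nodes

/-! ## 3. The tops, core form -/

section Tops

variable {K' : Type} [Field K'] [NumberField K']

/-- **THE TOP OF THE NODE T7.L2.2.B.** -/
theorem blocksUC_of675 (hZ : BlocksAsmUC675 K') (hW : WSpecUC675 K') (hC : CompleteUC675 K')
    (hS : SigmaUC675 K') (hO : OpsUC675 K') (hP : PhiUC675 K') (hF : OffWUC675 K') :
    BlocksUC675 K' :=
  hZ hW hC hS hO hP hF


/-- **THE TOP OF THE NODE T7.L2.2.B4.** -/
theorem opsUC_of675 (hX : IwSysExistsUC675 K') (hE : OpsEigUC675 K') (hR : OpsRelUC675 K')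
    (hM : OpsCommUC675 K') (hP : OpsPerUC675 K') (hA : OpsAdjUC675 K')
    (hS : OpsSigUC675 K') (hL : OpsLinkUC675 K') (hB : BadOpUC675 K') : OpsUC675 K' := by
  intro ℓ hℓ hcplx Φ hΦ U hU hst g hg
  have hs : IsSetupU675 ℓ Φ U := ⟨hℓ, hcplx, hΦ, hU⟩
  obtain ⟨Hs, ω, hsys⟩ := hX ℓ Φ U hs
  obtain ⟨Hg, hdbl, hBe, hBc⟩ := hB ℓ Φ U hs g hg
  refine ⟨Hs, ω, Hg, ?_⟩
  exact
    { S_eig := fun j ψ C h => (hE ℓ Φ U hs Hs ω hsys j ψ C h).1
      ρ_eig := fun j ψ C h => (hE ℓ Φ U hs Hs ω hsys j ψ C h).2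
      B_eig := hBe
      S_quad := fun j ψ h x => (hR ℓ Φ U hs Hs ω hsys j ψ h x).1
      ρ_central := fun j ψ h x => (hR ℓ Φ U hs Hs ω hsys j ψ h x).2
      comm_SS := fun j j' h1 h2 h3 ψ _ x => (hM ℓ Φ U hs Hs ω hsys j j' h1 h2 h3 ψ x).1
      comm_Sρ := fun j j' h1 h2 h3 ψ _ x => (hM ℓ Φ U hs Hs ω hsys j j' h1 h2 h3 ψ x).2.1
      comm_ρρ := fun j j' h1 h2 h3 ψ _ x => (hM ℓ Φ U hs Hs ω hsys j j' h1 h2 h3 ψ x).2.2
      per_S := fun j ψ h x => (hP ℓ Φ U hs Hs ω hsys j ψ h x).1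
      per_ρ := fun j ψ h x => (hP ℓ Φ U hs Hs ω hsys j ψ h x).2
      B_S := fun j ψ h x => (hBc Hs ω hsys j ψ h x).1
      B_ρ := fun j ψ h x => (hBc Hs ω hsys j ψ h x).2
      S_adj := fun j ψ χ h1 h2 => (hA ℓ Φ U hs Hs ω hsys j ψ χ h1 h2).1
      ρ_iso := fun j ψ χ h1 h2 => (hA ℓ Φ U hs Hs ω hsys j ψ χ h1 h2).2
      σ_S := fun j ψ h x => (hS ℓ Φ U hs hst Hs ω hsys j ψ h x).1
      σ_ρ := fun j ψ h x => (hS ℓ Φ U hs hst Hs ω hsys j ψ h x).2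
      dbl := hdbl
      iwsys := (hL ℓ Φ U hs Hs ω hsys).1
      unif := (hL ℓ Φ U hs Hs ω hsys).2 }


end Tops

/-! ## 4. The cyclic step: the structures and the leaves of helper561 from the core forms -/

section Cyclic

variable {K K' : Type} [Field K] [NumberField K] [Field K'] [NumberField K'] [Algebra K K']

theorem baseStableU_iff675 {Dt : L2Data K K'} :
    BaseStableU675 (H29.upOf Dt) ↔ BaseStable561 Dt := Iff.rfl

theorem isClassBasisU_iff675 {Dt : L2Data K K'} {ℓ : ℕ} {C : EigData K'} {n : ℕ}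
    {v : Fin n → G K' → ℂ} :
    IsClassBasisU675 (H29.upOf Dt) ℓ C n v ↔ IsClassBasis561 Dt ℓ C n v :=
  ⟨fun h => ⟨h.eig, h.orth, h.span⟩, fun h => ⟨h.eig, h.orth, h.span⟩⟩

theorem isBlocksU_iff675 {ℓ : ℕ} {Φ : HeckeEigensystem K' ℂ} {Dt : L2Data K K'} {g : G K'}
    {e₀ : ℕ → G K' → ℂ} {𝔅 : Blocks561 K'} :
    IsBlocksU675 ℓ Φ (H29.upOf Dt) g e₀ 𝔅 ↔ IsBlocks561 ℓ Φ Dt g e₀ 𝔅 :=
  ⟨fun h => ⟨h.onb, h.inj, h.unitary, h.distinct, fun i => isClassBasisU_iff675.1 (h.basis i),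
      h.phi, h.iw, h.coeff, h.off⟩,
    fun h => ⟨h.onb, h.inj, h.unitary, h.distinct, fun i => isClassBasisU_iff675.2 (h.basis i),
      h.phi, h.iw, h.coeff, h.off⟩⟩

theorem isWSpecU_iff675 {Dt : L2Data K K'} {ℓ : ℕ} {ι : Type} {n : ι → ℕ} {C : ι → EigData K'}
    {v : (i : ι) → Fin (n i) → G K' → ℂ} :
    IsWSpecU675 (H29.upOf Dt) ℓ ι n C v ↔ IsWSpec561 Dt ℓ ι n C v :=
  ⟨fun h => ⟨h.countable, h.unitary, h.distinct, fun i => isClassBasisU_iff675.1 (h.basis i),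
      h.orth, h.complete, h.cover⟩,
    fun h => ⟨h.countable, h.unitary, h.distinct, fun i => isClassBasisU_iff675.2 (h.basis i),
      h.orth, h.complete, h.cover⟩⟩

theorem isWOpsU_iff675 {Dt : L2Data K K'} {ℓ : ℕ} {g : G K'} {Hs : ℕ → Finset (G K')}
    {ω : ℕ → G K'} {Hg : Finset (G K')} :
    IsWOpsU675 (H29.upOf Dt) ℓ g Hs ω Hg ↔ IsWOps561 Dt ℓ g Hs ω Hg :=
  ⟨fun h => ⟨h.S_eig, h.ρ_eig, h.B_eig, h.S_quad, h.ρ_central, h.comm_SS, h.comm_Sρ,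
      h.comm_ρρ, h.per_S, h.per_ρ, h.B_S, h.B_ρ, h.S_adj, h.ρ_iso, h.σ_S, h.σ_ρ, h.dbl,
      h.iwsys, h.unif⟩,
    fun h => ⟨h.S_eig, h.ρ_eig, h.B_eig, h.S_quad, h.ρ_central, h.comm_SS, h.comm_Sρ,
      h.comm_ρρ, h.per_S, h.per_ρ, h.B_S, h.B_ρ, h.S_adj, h.ρ_iso, h.σ_S, h.σ_ρ, h.dbl,
      h.iwsys, h.unif⟩⟩

theorem isIwSysU_iff675 {Dt : L2Data K K'} {Hs : ℕ → Finset (G K')} {ω : ℕ → G K'} :
    IsIwSysU675 (H29.upOf Dt) Hs ω ↔ IsIwSys561 Dt Hs ω :=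
  ⟨fun h => ⟨h.ω_local, h.ω_comp, h.Hs_card, h.Hs_local, h.Hs_comp, h.Hs_inj⟩,
    fun h => ⟨h.ω_local, h.ω_comp, h.Hs_card, h.Hs_local, h.Hs_comp, h.Hs_inj⟩⟩

theorem isSetupU_of675 {ℓ : ℕ} {Φ : HeckeEigensystem K' ℂ} {Dt : L2Data K K'}
    (h : IsSetup561 ℓ Φ Dt) : IsSetupU675 ℓ Φ (H29.upOf Dt) :=
  ⟨h.cyc.prime, H29.totCplx_of_base h.cplx, h.cusp, H29.isUpData_upOf h.data⟩

/-- **`H561.BlocksC561` from the core form.** -/
theorem blocksC561_of_U675 (h : BlocksUC675 K') : BlocksC561 K K' := by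
  intro ℓ hcyc _ hcplx Φ hΦ _ Dt hDt hst g hg
  obtain ⟨e₀, 𝔅, hB⟩ := h ℓ hcyc.prime (H29.totCplx_of_base hcplx) Φ hΦ (H29.upOf Dt)
    (H29.isUpData_upOf hDt) hst g hg
  exact ⟨e₀, 𝔅, isBlocksU_iff675.1 hB⟩

/-- **`H561.WSpecC561` from the core form.** -/
theorem wSpecC561_of_U675 (h : WSpecUC675 K') : WSpecC561 K K' := by
  intro ℓ hcyc _ hcplx Φ hΦ _ Dt hDt
  obtain ⟨ι, n, C, v, hW⟩ := h ℓ hcyc.prime (H29.totCplx_of_base hcplx) Φ hΦ (H29.upOf Dt)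
    (H29.isUpData_upOf hDt)
  exact ⟨ι, n, C, v, isWSpecU_iff675.1 hW⟩

/-- **`H561.CompleteC561` from the core form.** -/
theorem completeC561_of_U675 (h : CompleteUC675 K') : CompleteC561 K K' := by
  intro ℓ hcyc _ hcplx Φ hΦ _ Dt hDt g hg ι n C v hW
  exact h ℓ hcyc.prime (H29.totCplx_of_base hcplx) Φ hΦ (H29.upOf Dt) (H29.isUpData_upOf hDt)
    g hg ι n C v (isWSpecU_iff675.2 hW)

/-- **`H561.SigmaC561` from the core form.** -/
theorem sigmaC561_of_U675 (h : SigmaUC675 K') : SigmaC561 K K' := by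
  intro ℓ hcyc _ hcplx Φ hΦ _ Dt hDt hst
  exact h ℓ hcyc.prime (H29.totCplx_of_base hcplx) Φ hΦ (H29.upOf Dt) (H29.isUpData_upOf hDt)
    hst

/-- **`H561.OpsC561` from the core form.** -/
theorem opsC561_of_U675 (h : OpsUC675 K') : OpsC561 K K' := by
  intro ℓ hcyc _ hcplx Φ hΦ _ Dt hDt hst g hg
  obtain ⟨Hs, ω, Hg, hO⟩ := h ℓ hcyc.prime (H29.totCplx_of_base hcplx) Φ hΦ (H29.upOf Dt)
    (H29.isUpData_upOf hDt) hst g hg
  exact ⟨Hs, ω, Hg, isWOpsU_iff675.1 hO⟩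

/-- **`H561.PhiC561` from the core form.** -/
theorem phiC561_of_U675 (h : PhiUC675 K') : PhiC561 K K' := by
  intro ℓ hcyc _ hcplx Φ hΦ _ Dt hDt
  exact h ℓ hcyc.prime (H29.totCplx_of_base hcplx) Φ hΦ (H29.upOf Dt) (H29.isUpData_upOf hDt)

/-- **`H561.OffWC561` from the core form.** -/
theorem offWC561_of_U675 (h : OffWUC675 K') : OffWC561 K K' := by
  intro ℓ hcyc _ hcplx Φ hΦ _ Dt hDt g hg ι n C v hW
  exact h ℓ hcyc.prime (H29.totCplx_of_base hcplx) Φ hΦ (H29.upOf Dt) (H29.isUpData_upOf hDt)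
    g hg ι n C v (isWSpecU_iff675.2 hW)

/-- **`H561.IwSysExistsC561` from the core form.** -/
theorem iwSysExistsC561_of_U675 (h : IwSysExistsUC675 K') : IwSysExistsC561 K K' := by
  intro ℓ Φ Dt hs
  obtain ⟨Hs, ω, hsys⟩ := h ℓ Φ (H29.upOf Dt) (isSetupU_of675 hs)
  exact ⟨Hs, ω, isIwSysU_iff675.1 hsys⟩

/-- **`H561.OpsEigC561` from the core form.** -/
theorem opsEigC561_of_U675 (h : OpsEigUC675 K') : OpsEigC561 K K' :=
  fun ℓ Φ Dt hs Hs ω hsys =>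
    h ℓ Φ (H29.upOf Dt) (isSetupU_of675 hs) Hs ω (isIwSysU_iff675.2 hsys)

/-- **`H561.OpsRelC561` from the core form.** -/
theorem opsRelC561_of_U675 (h : OpsRelUC675 K') : OpsRelC561 K K' :=
  fun ℓ Φ Dt hs Hs ω hsys =>
    h ℓ Φ (H29.upOf Dt) (isSetupU_of675 hs) Hs ω (isIwSysU_iff675.2 hsys)

/-- **`H561.OpsCommC561` from the core form.** -/
theorem opsCommC561_of_U675 (h : OpsCommUC675 K') : OpsCommC561 K K' :=
  fun ℓ Φ Dt hs Hs ω hsys =>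
    h ℓ Φ (H29.upOf Dt) (isSetupU_of675 hs) Hs ω (isIwSysU_iff675.2 hsys)

/-- **`H561.OpsPerC561` from the core form.** -/
theorem opsPerC561_of_U675 (h : OpsPerUC675 K') : OpsPerC561 K K' :=
  fun ℓ Φ Dt hs Hs ω hsys =>
    h ℓ Φ (H29.upOf Dt) (isSetupU_of675 hs) Hs ω (isIwSysU_iff675.2 hsys)

/-- **`H561.OpsAdjC561` from the core form.** -/
theorem opsAdjC561_of_U675 (h : OpsAdjUC675 K') : OpsAdjC561 K K' :=
  fun ℓ Φ Dt hs Hs ω hsys =>
    h ℓ Φ (H29.upOf Dt) (isSetupU_of675 hs) Hs ω (isIwSysU_iff675.2 hsys)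

/-- **`H561.OpsSigC561` from the core form.** -/
theorem opsSigC561_of_U675 (h : OpsSigUC675 K') : OpsSigC561 K K' :=
  fun ℓ Φ Dt hs hst Hs ω hsys =>
    h ℓ Φ (H29.upOf Dt) (isSetupU_of675 hs) hst Hs ω (isIwSysU_iff675.2 hsys)

/-- **`H561.OpsLinkC561` from the core form.** -/
theorem opsLinkC561_of_U675 (h : OpsLinkUC675 K') : OpsLinkC561 K K' :=
  fun ℓ Φ Dt hs Hs ω hsys =>
    h ℓ Φ (H29.upOf Dt) (isSetupU_of675 hs) Hs ω (isIwSysU_iff675.2 hsys)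

/-- **`H561.BadOpC561` from the core form.** -/
theorem badOpC561_of_U675 (h : BadOpUC675 K') : BadOpC561 K K' := by
  intro ℓ Φ Dt hs g hg
  obtain ⟨Hg, h1, h2, h3⟩ := h ℓ Φ (H29.upOf Dt) (isSetupU_of675 hs) g hg
  exact ⟨Hg, h1, h2, fun Hs ω hsys => h3 Hs ω (isIwSysU_iff675.2 hsys)⟩

end Cyclic

/-! ## Appendix: the equation lemmas of the definitions of this file are realised HERE -/

theorem eqns_realised_blocksU675 : True := by
  have _a0_1 := @BaseStableU675.eq_1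
  have _a0_2 := @BaseStableU675.eq_def
  have _a0_3 := @BaseStableU675.eq_unfold
  have _a1_1 := @BlocksUC675.eq_1
  have _a1_2 := @BlocksUC675.eq_def
  have _a1_3 := @BlocksUC675.eq_unfold
  have _a2_1 := @WSpecUC675.eq_1
  have _a2_2 := @WSpecUC675.eq_def
  have _a2_3 := @WSpecUC675.eq_unfold
  have _a3_1 := @CompleteUC675.eq_1
  have _a3_2 := @CompleteUC675.eq_def
  have _a3_3 := @CompleteUC675.eq_unfold
  have _a4_1 := @SigmaUC675.eq_1
  have _a4_2 := @SigmaUC675.eq_def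
  have _a4_3 := @SigmaUC675.eq_unfold
  have _a5_1 := @OpsUC675.eq_1
  have _a5_2 := @OpsUC675.eq_def
  have _a5_3 := @OpsUC675.eq_unfold
  have _a6_1 := @PhiUC675.eq_1
  have _a6_2 := @PhiUC675.eq_def
  have _a6_3 := @PhiUC675.eq_unfold
  have _a7_1 := @OffWUC675.eq_1
  have _a7_2 := @OffWUC675.eq_def
  have _a7_3 := @OffWUC675.eq_unfold
  have _a8_1 := @BlocksAsmUC675.eq_1
  have _a8_2 := @BlocksAsmUC675.eq_def
  have _a8_3 := @BlocksAsmUC675.eq_unfold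
  have _a9_1 := @IwSysExistsUC675.eq_1
  have _a9_2 := @IwSysExistsUC675.eq_def
  have _a9_3 := @IwSysExistsUC675.eq_unfold
  have _a10_1 := @OpsEigUC675.eq_1
  have _a10_2 := @OpsEigUC675.eq_def
  have _a10_3 := @OpsEigUC675.eq_unfold
  have _a11_1 := @OpsRelUC675.eq_1
  have _a11_2 := @OpsRelUC675.eq_def
  have _a11_3 := @OpsRelUC675.eq_unfold
  have _a12_1 := @OpsCommUC675.eq_1
  have _a12_2 := @OpsCommUC675.eq_def
  have _a12_3 := @OpsCommUC675.eq_unfold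
  have _a13_1 := @OpsPerUC675.eq_1
  have _a13_2 := @OpsPerUC675.eq_def
  have _a13_3 := @OpsPerUC675.eq_unfold
  have _a14_1 := @OpsAdjUC675.eq_1
  have _a14_2 := @OpsAdjUC675.eq_def
  have _a14_3 := @OpsAdjUC675.eq_unfold
  have _a15_1 := @OpsSigUC675.eq_1
  have _a15_2 := @OpsSigUC675.eq_def
  have _a15_3 := @OpsSigUC675.eq_unfold
  have _a16_1 := @OpsLinkUC675.eq_1
  have _a16_2 := @OpsLinkUC675.eq_def
  have _a16_3 := @OpsLinkUC675.eq_unfold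
  have _a17_1 := @BadOpUC675.eq_1
  have _a17_2 := @BadOpUC675.eq_def
  have _a17_3 := @BadOpUC675.eq_unfold
  trivial

end Fermat.Agent.LT.T7.UB675

end
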