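import Fermat.Agent.LT.T7.H736.UpS
import Fermat.Agent.LT.T7.H616.ClassModelTop

/-!
# Row LT, tower T7, registry 2152 (helper675): THE CUT OF `ClassModelC` (helper616) IN CORE FORM

OFF-MAIN.  Definitions, frozen Props, PROVED top and bridges.  No hole, nothing assumed.
ADDITIVE (new names only, all ending in `675`, namespace `Fermat.Agent.LT.T7.CMU675`) to
`T7/H616/ClassModelSpec.lean` 8568bae7 + `ClassModelTop.lean` baf76075 (helper616, the cut of
`SU736.ClassModelC`), `T7/H736/UpS.lean` 98771005 (helper736, the nodes of level 5 in core form)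
and `T7/H29/UpCore.lean` c2d817fc + `UpCore2.lean` 5e142413 (helper29, the core of record).

Ruling of the architect helper797 of 15:58Z: the upstairs half is proved ONCE, over `K'` alone,
on `H29.UpData`.  The eleven leaves CM.01 - CM.11 of helper616 are typed on `L2Data K K'` with the
hypotheses of the cyclic step (`CM616.Ctx616`).  Here they are typed on `H29.UpData K'`
(`CtxU675`: `ℓ` prime, `ℓ = 2` allowed, `K'` totally complex, `H29.IsUpData`, `H29.BaseStableU`):

    classModelUC_of675 : FinDimUC675 K' → NontrivUC675 K' → StabGUC675 K' → StabSUC675 K'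
        → CommGIUC675 K' → LocCommUC675 K' → LocMoveUC675 K' → PowUC675 K' → SimpleUC675 K'
        → MulGUC675 K' → DictUC675 K' → SU736.ClassModelUC K'              (THE TOP, core form)
    finDimC616_of_U675 : FinDimUC675 K' → CM616.FinDimC616 K K'   (and the ten other bridges:
                                                       the leaves of helper616 FOLLOW)
    classModelC_of_U675 : (the eleven core leaves) → SU736.ClassModelC K K'

So the owner of a leaf CM.xx proves the CORE form (the SAME proof after the renaming `Dt ↦ U`;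
only upstairs fields exist in `H29.IsUpData`): the cyclic leaf follows by the bridge, and the
quadratic step `F / ℚ` (registry 2152) needs no second proof.

The model is the model of helper616 verbatim (`CM616.classSp616`, `CM616.restr616`,
`CM616.cosetLin616`, `CM616.rsigLin616`, `CM616.rsigInvLin616` are one-field definitions and are
used as they are); `clsU675 (H29.upOf Dt) ℓ Φ` and `CM616.cls616 Dt ℓ Φ` are the same term after
unfolding.
-/

set_option autoImplicit false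

open AutomorphicForm IsDedekindDomain NumberField MeasureTheory
open scoped ComplexConjugate

noncomputable section

namespace Fermat.Agent.LT.T7.CMU675

open Fermat.Agent.LT.H556 Fermat.Agent.LT.H556.A0 Fermat.Agent.LT.T7 Fermat.Agent.LT.T7.SU736
open Fermat.Agent.LT.T7.CM616

attribute [local instance] Fermat.Agent.LT.T5.instMeasurableSpaceG

/-! ## 1. The model, on the upstairs data -/

section Model

variable {K' : Type} [Field K'] [NumberField K']

/-- The class space of `Φ` at the base level. -/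
def clsU675 (U : H29.UpData K') (ℓ : ℕ) (Φ : HeckeEigensystem K' ℂ) : Submodule ℂ (G K' → ℂ) :=
  classSp616 U.𝔑₀ U.R'.r ℓ U.o (eigOf Φ)

/-- The double coset operators of the bad elements on the class space. -/
def gSetU675 (U : H29.UpData K') (ℓ : ℕ) (Φ : HeckeEigensystem K' ℂ) :
    Set (Module.End ℂ (clsU675 U ℓ Φ)) :=
  {T | ∃ (g : G K') (Hg : Finset (G K')), U.IsBad g ∧ IsDblCosetSystem U.𝔑₀ g Hg ∧
    T = restr616 (clsU675 U ℓ Φ) (cosetLin616 Hg)}

/-- The sums of right translates supported at `o j` which preserve the class space. -/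
def iSetU675 (U : H29.UpData K') (ℓ : ℕ) (Φ : HeckeEigensystem K' ℂ) (j : ℕ) :
    Set (Module.End ℂ (clsU675 U ℓ Φ)) :=
  {T | ∃ H : Finset (G K'), (∀ h ∈ H, IsLocalAtFin (U.o j) h) ∧
    (∀ ψ ∈ clsU675 U ℓ Φ, cosetLin616 H ψ ∈ clsU675 U ℓ Φ) ∧
    T = restr616 (clsU675 U ℓ Φ) (cosetLin616 H)}

/-- `R(σ)` on the class space. -/
def sOpU675 (U : H29.UpData K') (ℓ : ℕ) (Φ : HeckeEigensystem K' ℂ) :
    Module.End ℂ (clsU675 U ℓ Φ) :=
  restr616 (clsU675 U ℓ Φ) (rsigLin616 U.s)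

/-- `R(σ)⁻¹` on the class space. -/
def sInvOpU675 (U : H29.UpData K') (ℓ : ℕ) (Φ : HeckeEigensystem K' ℂ) :
    Module.End ℂ (clsU675 U ℓ Φ) :=
  restr616 (clsU675 U ℓ Φ) (rsigInvLin616 U.s)

end Model

/-! ## 2. The context and the leaves, core form -/

section Leaves

variable (K' : Type) [Field K'] [NumberField K']

/-- The hypotheses of `SU736.ClassModelUC` (core form of `CM616.Ctx616`). -/
structure CtxU675 (ℓ : ℕ) (Φ : HeckeEigensystem K' ℂ) (U : H29.UpData K') : Prop where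
  prime : ℓ.Prime
  cplx : TotCplx K'
  cusp : A0.IsCuspAdelicSph0 K' Φ
  data : H29.IsUpData ℓ Φ U
  stable : H29.BaseStableU U

/-- **LEAF CM.01 = FIN-DIM.**  The class space is finite dimensional. -/
def FinDimUC675 : Prop :=
  ∀ (ℓ : ℕ) (Φ : HeckeEigensystem K' ℂ) (U : H29.UpData K'), CtxU675 K' ℓ Φ U →
    FiniteDimensional ℂ (clsU675 U ℓ Φ)

/-- **LEAF CM.02 = NON-TRIVIAL.**  There is a non-zero invariant eigenfunction with the data of
`Φ` at the base level (the form of `Φ`). -/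
def NontrivUC675 : Prop :=
  ∀ (ℓ : ℕ) (Φ : HeckeEigensystem K' ℂ) (U : H29.UpData K'), CtxU675 K' ℓ Φ U →
    ∃ ψ : G K' → ℂ, IsEigFn U.𝔑₀ U.R'.r ℓ U.o ψ (eigOf Φ) ∧ ∃ x : G K', ψ x ≠ 0

/-- **LEAF CM.03 = STAB-G.**  The double coset operator of a bad element maps the invariant
eigenfunctions with the data of `Φ` to such functions. -/
def StabGUC675 : Prop :=
  ∀ (ℓ : ℕ) (Φ : HeckeEigensystem K' ℂ) (U : H29.UpData K'), CtxU675 K' ℓ Φ U →
    ∀ (g : G K') (Hg : Finset (G K')), U.IsBad g → IsDblCosetSystem U.𝔑₀ g Hg →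
      ∀ ψ : G K' → ℂ, IsEigFn U.𝔑₀ U.R'.r ℓ U.o ψ (eigOf Φ) →
        IsEigFn U.𝔑₀ U.R'.r ℓ U.o (cosetOp Hg ψ) (eigOf Φ)

/-- **LEAF CM.04 = STAB-S.**  `R(σ)` and `R(σ)⁻¹` map the invariant eigenfunctions with the data
of `Φ` to such functions (`BaseStable`, `IsL2Data.const`). -/
def StabSUC675 : Prop :=
  ∀ (ℓ : ℕ) (Φ : HeckeEigensystem K' ℂ) (U : H29.UpData K'), CtxU675 K' ℓ Φ U →
    ∀ ψ : G K' → ℂ, IsEigFn U.𝔑₀ U.R'.r ℓ U.o ψ (eigOf Φ) →
      IsEigFn U.𝔑₀ U.R'.r ℓ U.o (T5.Rsig U.s ψ) (eigOf Φ) ∧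
        IsEigFn U.𝔑₀ U.R'.r ℓ U.o (fun x => ψ (U.s.onG x)) (eigOf Φ)

/-- **LEAF CM.05 = COMM-GI.**  On the functions `ψ` such that `ψ` and `cosetOp H ψ` are right
invariant under `U(𝔑₀)`, the double coset operator of a bad element commutes with the sum of the
right translates by a finite set `H` of elements supported at `o j`. -/
def CommGIUC675 : Prop :=
  ∀ (ℓ : ℕ) (Φ : HeckeEigensystem K' ℂ) (U : H29.UpData K'), CtxU675 K' ℓ Φ U →
    ∀ (g : G K') (Hg : Finset (G K')), U.IsBad g → IsDblCosetSystem U.𝔑₀ g Hg →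
      ∀ j < ℓ, ∀ H : Finset (G K'), (∀ h ∈ H, IsLocalAtFin (U.o j) h) →
        ∀ ψ : G K' → ℂ, IsLevelInv616 U.𝔑₀ ψ → IsLevelInv616 U.𝔑₀ (cosetOp H ψ) →
          ∀ x : G K', cosetOp Hg (cosetOp H ψ) x = cosetOp H (cosetOp Hg ψ) x

/-- **LEAF CM.06 = LOC-COMM.**  Elements supported at two different places of the orbit
commute. -/
def LocCommUC675 : Prop :=
  ∀ (ℓ : ℕ) (Φ : HeckeEigensystem K' ℂ) (U : H29.UpData K'), CtxU675 K' ℓ Φ U →
    ∀ i < ℓ, ∀ j < ℓ, i ≠ j → ∀ h h' : G K',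
      IsLocalAtFin (U.o i) h → IsLocalAtFin (U.o j) h' → h * h' = h' * h

/-- **LEAF CM.07 = LOC-MOVE.**  `σ⁻¹` maps the elements supported at `o (j+1)` to elements
supported at `o j`, and the elements supported at `o 0` to elements supported at `o (ℓ-1)`. -/
def LocMoveUC675 : Prop :=
  ∀ (ℓ : ℕ) (Φ : HeckeEigensystem K' ℂ) (U : H29.UpData K'), CtxU675 K' ℓ Φ U →
    (∀ j : ℕ, j + 1 < ℓ → ∀ h : G K', IsLocalAtFin (U.o (j + 1)) h →
      IsLocalAtFin (U.o j) (U.s.onGinv h)) ∧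
    ∀ h : G K', IsLocalAtFin (U.o 0) h → IsLocalAtFin (U.o (ℓ - 1)) (U.s.onGinv h)

/-- **LEAF CM.08 = POW.**  `σ⁻ℓ = 1` on `GL₂(𝔸_{K'})`. -/
def PowUC675 : Prop :=
  ∀ (ℓ : ℕ) (Φ : HeckeEigensystem K' ℂ) (U : H29.UpData K'), CtxU675 K' ℓ Φ U →
    ∀ x : G K', (⇑U.s.onGinv)^[ℓ] x = x

/-- **LEAF CM.09 = SIMPLE** (multiplicity one in module form).  A subspace of the class space
which is stable under the double coset operators of the bad elements and under the sums of right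
translates supported at the places of the orbit (those which preserve the class space) is `0` or
the class space. -/
def SimpleUC675 : Prop :=
  ∀ (ℓ : ℕ) (Φ : HeckeEigensystem K' ℂ) (U : H29.UpData K'), CtxU675 K' ℓ Φ U →
    ∀ W : Submodule ℂ (G K' → ℂ), W ≤ clsU675 U ℓ Φ →
      (∀ (g : G K') (Hg : Finset (G K')), U.IsBad g → IsDblCosetSystem U.𝔑₀ g Hg →
        ∀ ψ ∈ W, cosetOp Hg ψ ∈ W) →
      (∀ j < ℓ, ∀ H : Finset (G K'), (∀ h ∈ H, IsLocalAtFin (U.o j) h) →
        (∀ ψ ∈ clsU675 U ℓ Φ, cosetOp H ψ ∈ clsU675 U ℓ Φ) → ∀ ψ ∈ W, cosetOp H ψ ∈ W) →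
      W = ⊥ ∨ W = clsU675 U ℓ Φ

/-- **LEAF CM.10 = MUL-G.**  On the functions which are right invariant under `U(𝔑₀)` the
product of two double coset operators of bad elements is a linear combination of double coset
operators of bad elements. -/
def MulGUC675 : Prop :=
  ∀ (ℓ : ℕ) (Φ : HeckeEigensystem K' ℂ) (U : H29.UpData K'), CtxU675 K' ℓ Φ U →
    ∀ (g g' : G K') (Hg Hg' : Finset (G K')), U.IsBad g → IsDblCosetSystem U.𝔑₀ g Hg →
      U.IsBad g' → IsDblCosetSystem U.𝔑₀ g' Hg' →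
      ∃ (n : ℕ) (c : Fin n → ℂ) (g'' : Fin n → G K') (H'' : Fin n → Finset (G K')),
        (∀ i, U.IsBad (g'' i) ∧ IsDblCosetSystem U.𝔑₀ (g'' i) (H'' i)) ∧
        ∀ ψ : G K' → ℂ, IsLevelInv616 U.𝔑₀ ψ →
          ∀ x : G K', cosetOp Hg (cosetOp Hg' ψ) x = ∑ i, c i * cosetOp (H'' i) ψ x

/-- **LEAF CM.11 = DICT.**  For every finite orthonormal basis of the class space the twisted
trace of `[U g U] R(σ)` is the trace of the operator of the model. -/
def DictUC675 : Prop :=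
  ∀ (ℓ : ℕ) (Φ : HeckeEigensystem K' ℂ) (U : H29.UpData K'), CtxU675 K' ℓ Φ U →
    ∀ (g : G K') (Hg : Finset (G K')), U.IsBad g → IsDblCosetSystem U.𝔑₀ g Hg →
      ∀ (q : ℕ → G K' → ℂ) (J : Finset ℕ),
        IsClassBasisOn U.𝔑₀ U.R' ℓ U.o (eigOf Φ) q J →
          twTrace U.s U.R' Hg q J
            = LinearMap.trace ℂ (clsU675 U ℓ Φ)
                (restr616 (clsU675 U ℓ Φ) (cosetLin616 Hg) * sOpU675 U ℓ Φ)

end Leaves

/-! ## 3. The top, core form -/

section Top

variable {K' : Type} [Field K'] [NumberField K']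

theorem isBad_oneU675 (U : H29.UpData K') : U.IsBad (1 : G K') :=
  ⟨fun w => trivAtInf_one616 w, fun v _ => trivAtFin_one616 v⟩

/-- **THE TOP OF THE NODE `ClassModelC`.** -/
theorem classModelUC_of675 (h01 : FinDimUC675 K') (h02 : NontrivUC675 K')
    (h03 : StabGUC675 K') (h04 : StabSUC675 K') (h05 : CommGIUC675 K')
    (h06 : LocCommUC675 K') (h07 : LocMoveUC675 K') (h08 : PowUC675 K')
    (h09 : SimpleUC675 K') (h10 : MulGUC675 K') (h11 : DictUC675 K') :
    SU736.ClassModelUC K' := by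
  classical
  intro ℓ hℓ hcplx Φ hΦ U hU hst
  have ctx : CtxU675 K' ℓ Φ U := ⟨hℓ, hcplx, hΦ, hU, hst⟩
  have hl : 0 < ℓ := hℓ.pos
  -- stability of the class space
  have stS : ∀ ψ ∈ clsU675 U ℓ Φ, rsigLin616 U.s ψ ∈ clsU675 U ℓ Φ :=
    mem_classSp_of_map616 (rsigLin616 U.s) fun ψ hψ => (h04 ℓ Φ U ctx ψ hψ).1
  have stSi : ∀ ψ ∈ clsU675 U ℓ Φ, rsigInvLin616 U.s ψ ∈ clsU675 U ℓ Φ :=
    mem_classSp_of_map616 (rsigInvLin616 U.s) fun ψ hψ => (h04 ℓ Φ U ctx ψ hψ).2
  have stG : ∀ (g : G K') (Hg : Finset (G K')), U.IsBad g → IsDblCosetSystem U.𝔑₀ g Hg →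
      ∀ ψ ∈ clsU675 U ℓ Φ, cosetLin616 Hg ψ ∈ clsU675 U ℓ Φ := fun g Hg hg hHg =>
    mem_classSp_of_map616 (cosetLin616 Hg) fun ψ hψ => h03 ℓ Φ U ctx g Hg hg hHg ψ hψ
  have lev : ∀ ψ ∈ clsU675 U ℓ Φ, IsLevelInv616 U.𝔑₀ ψ := levelInv_of_mem616
  have hleft : ∀ g : G K', U.s.onGinv (U.s.onG g) = g := hst.left_inverse
  have hright : ∀ g : G K', U.s.onG (U.s.onGinv g) = g := hst.right_inverse
  have hfd : FiniteDimensional ℂ (clsU675 U ℓ Φ) := h01 ℓ Φ U ctx
  have hnt : Nontrivial (clsU675 U ℓ Φ) := by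
    obtain ⟨ψ, hψ, x, hx⟩ := h02 ℓ Φ U ctx
    refine ⟨⟨⟨ψ, Submodule.subset_span hψ⟩, 0, fun h => hx ?_⟩⟩
    have h' : ψ = 0 := congrArg Subtype.val h
    rw [h']
    rfl
  -- the conjugation by `R(σ)`
  have hconj : ∀ (w w' : HeightOneSpectrum (𝓞 K')),
      (∀ h : G K', IsLocalAtFin w' h → IsLocalAtFin w (U.s.onGinv h)) →
      ∀ H : Finset (G K'), (∀ h ∈ H, IsLocalAtFin w' h) →
        (∀ ψ ∈ clsU675 U ℓ Φ, cosetLin616 H ψ ∈ clsU675 U ℓ Φ) →
        ∃ H' : Finset (G K'), (∀ h ∈ H', IsLocalAtFin w h) ∧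
          (∀ ψ ∈ clsU675 U ℓ Φ, cosetLin616 H' ψ ∈ clsU675 U ℓ Φ) ∧
          sInvOpU675 U ℓ Φ * restr616 (clsU675 U ℓ Φ) (cosetLin616 H) * sOpU675 U ℓ Φ
            = restr616 (clsU675 U ℓ Φ) (cosetLin616 H') := by
    intro w w' hmove H hH hstH
    have key := conj_cosetOp616 U.s hleft hright H
    have hst' : ∀ ψ ∈ clsU675 U ℓ Φ,
        cosetLin616 (H.image U.s.onGinv) ψ ∈ clsU675 U ℓ Φ := by
      intro ψ hψ
      rw [← key ψ]
      exact stSi _ (hstH _ (stS ψ hψ))
    refine ⟨H.image U.s.onGinv, ?_, hst', ?_⟩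
    · intro h hh
      obtain ⟨h₀, hh₀, rfl⟩ := Finset.mem_image.1 hh
      exact hmove h₀ (hH h₀ hh₀)
    · apply LinearMap.ext
      intro v
      apply Subtype.ext
      rw [Module.End.mul_apply, Module.End.mul_apply]
      unfold sInvOpU675 sOpU675
      rw [restr616_apply _ _ stSi, restr616_apply _ _ hstH, restr616_apply _ _ stS,
        restr616_apply _ _ hst', key]
  -- `S ^ n`
  have hpow : ∀ (n : ℕ) (v : clsU675 U ℓ Φ),
      (((sOpU675 U ℓ Φ ^ n) v : clsU675 U ℓ Φ) : G K' → ℂ)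
        = (rsigLin616 U.s)^[n] (v : G K' → ℂ) := by
    intro n
    induction n with
    | zero => intro v; rfl
    | succ n ih =>
      intro v
      rw [pow_succ', Module.End.mul_apply, Function.iterate_succ_apply', ← ih v]
      unfold sOpU675
      rw [restr616_apply _ _ stS]
  have hSl : sOpU675 U ℓ Φ ^ ℓ = 1 := by
    apply LinearMap.ext
    intro v
    apply Subtype.ext
    rw [hpow ℓ v, Module.End.one_apply]
    funext x
    rw [iterate_rsig616, h08 ℓ Φ U ctx x]
  refine ⟨clsU675 U ℓ Φ, inferInstance, inferInstance, hfd, hnt, gSetU675 U ℓ Φ,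
    iSetU675 U ℓ Φ, sOpU675 U ℓ Φ, sInvOpU675 U ℓ Φ, ?_⟩
  refine
    { hS := ?_
      hS' := ?_
      hGI := ?_
      hII := ?_
      hdown := ?_
      hwrap := ?_
      hcent := ?_
      hirr := ?_
      h1 := ?_
      hmul := ?_
      dict := ?_ }
  · -- hS
    apply LinearMap.ext
    intro v
    apply Subtype.ext
    rw [Module.End.mul_apply, Module.End.one_apply]
    unfold sOpU675 sInvOpU675
    rw [restr616_apply _ _ stS, restr616_apply _ _ stSi]
    funext x
    rw [rsigLin616_apply, rsigInvLin616_apply, hright]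
  · -- hS'
    apply LinearMap.ext
    intro v
    apply Subtype.ext
    rw [Module.End.mul_apply, Module.End.one_apply]
    unfold sOpU675 sInvOpU675
    rw [restr616_apply _ _ stSi, restr616_apply _ _ stS]
    funext x
    rw [rsigInvLin616_apply, rsigLin616_apply, hleft]
  · -- hGI
    rintro j hj _ ⟨g, Hg, hg, hHg, rfl⟩ _ ⟨H, hH, hstH, rfl⟩
    apply LinearMap.ext
    intro v
    apply Subtype.ext
    rw [Module.End.mul_apply, Module.End.mul_apply, restr616_apply _ _ (stG g Hg hg hHg),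
      restr616_apply _ _ hstH, restr616_apply _ _ hstH, restr616_apply _ _ (stG g Hg hg hHg)]
    funext x
    exact h05 ℓ Φ U ctx g Hg hg hHg j hj H hH v.1 (lev v.1 v.2) (lev _ (hstH v.1 v.2)) x
  · -- hII
    rintro i hi j hj hij _ ⟨H, hH, hstH, rfl⟩ _ ⟨H', hH', hstH', rfl⟩
    apply LinearMap.ext
    intro v
    apply Subtype.ext
    rw [Module.End.mul_apply, Module.End.mul_apply, restr616_apply _ _ hstH,
      restr616_apply _ _ hstH', restr616_apply _ _ hstH', restr616_apply _ _ hstH]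
    funext x
    exact cosetOp_comm616 H H'
      (fun a ha b hb => h06 ℓ Φ U ctx i hi j hj hij a b (hH a ha) (hH' b hb)) v.1 x
  · -- hdown
    rintro j hj _ ⟨H, hH, hstH, rfl⟩
    obtain ⟨H', hH', hstH', heq⟩ := hconj (U.o j) (U.o (j + 1))
      ((h07 ℓ Φ U ctx).1 j hj) H hH hstH
    rw [heq]
    exact Algebra.subset_adjoin ⟨H', hH', hstH', rfl⟩
  · -- hwrap
    rintro _ ⟨H, hH, hstH, rfl⟩
    obtain ⟨H', hH', hstH', heq⟩ := hconj (U.o (ℓ - 1)) (U.o 0)
      ((h07 ℓ Φ U ctx).2) H hH hstH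
    rw [heq]
    exact Algebra.subset_adjoin ⟨H', hH', hstH', rfl⟩
  · -- hcent
    intro h _
    rw [hSl, one_mul, mul_one]
  · -- hirr
    intro W hG hI
    have h := h09 ℓ Φ U ctx (W.map (clsU675 U ℓ Φ).subtype)
      (Submodule.map_subtype_le _ W) ?_ ?_
    · rcases h with h | h
      · left
        rw [Submodule.eq_bot_iff]
        intro w hw
        have : ((w : clsU675 U ℓ Φ) : G K' → ℂ) ∈ W.map (clsU675 U ℓ Φ).subtype :=
          ⟨w, hw, rfl⟩
        rw [h, Submodule.mem_bot] at this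
        exact Subtype.ext this
      · right
        rw [Submodule.eq_top_iff']
        intro v
        have : ((v : clsU675 U ℓ Φ) : G K' → ℂ) ∈ W.map (clsU675 U ℓ Φ).subtype := by
          rw [h]
          exact v.2
        obtain ⟨w, hw, hwv⟩ := this
        have : w = v := Subtype.ext hwv
        rw [← this]
        exact hw
    · rintro g Hg hg hHg ψ ⟨w, hw, rfl⟩
      have := hG (restr616 (clsU675 U ℓ Φ) (cosetLin616 Hg)) ⟨g, Hg, hg, hHg, rfl⟩ hw
      exact ⟨_, this, restr616_apply _ _ (stG g Hg hg hHg) w⟩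
    · rintro j hj H hH hstH ψ ⟨w, hw, rfl⟩
      have := hI j hj (restr616 (clsU675 U ℓ Φ) (cosetLin616 H)) ⟨H, hH, hstH, rfl⟩ hw
      exact ⟨_, this, restr616_apply _ _ hstH w⟩
  · -- h1
    refine Submodule.subset_span ⟨1, {1}, isBad_oneU675 U, isDblCosetSystem_one616 _, ?_⟩
    apply LinearMap.ext
    intro v
    apply Subtype.ext
    rw [restr616_apply _ _ (stG 1 {1} (isBad_oneU675 U) (isDblCosetSystem_one616 _)),
      Module.End.one_apply, cosetLin616_apply, cosetOp_singleton_one616]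
  · -- hmul
    rintro _ ⟨g, Hg, hg, hHg, rfl⟩ _ ⟨g', Hg', hg', hHg', rfl⟩
    obtain ⟨n, c, g'', H'', hbad, hprod⟩ := h10 ℓ Φ U ctx g g' Hg Hg' hg hHg hg' hHg'
    have heq : restr616 (clsU675 U ℓ Φ) (cosetLin616 Hg)
          * restr616 (clsU675 U ℓ Φ) (cosetLin616 Hg')
        = ∑ i, c i • restr616 (clsU675 U ℓ Φ) (cosetLin616 (H'' i)) := by
      apply LinearMap.ext
      intro v
      apply Subtype.ext
      rw [Module.End.mul_apply, restr616_apply _ _ (stG g Hg hg hHg),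
        restr616_apply _ _ (stG g' Hg' hg' hHg'), LinearMap.sum_apply, Submodule.coe_sum]
      funext x
      rw [Finset.sum_apply]
      rw [cosetLin616_apply, cosetLin616_apply, hprod v.1 (lev v.1 v.2) x]
      refine Finset.sum_congr rfl fun i _ => ?_
      rw [LinearMap.smul_apply, Submodule.coe_smul, Pi.smul_apply, smul_eq_mul,
        restr616_apply _ _ (stG (g'' i) (H'' i) (hbad i).1 (hbad i).2), cosetLin616_apply]
    rw [heq]
    exact Submodule.sum_mem _ fun i _ => Submodule.smul_mem _ _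
      (Submodule.subset_span ⟨g'' i, H'' i, (hbad i).1, (hbad i).2, rfl⟩)
  · -- dict
    rintro _ ⟨g, Hg, hg, hHg, rfl⟩
    exact ⟨g, Hg, hg, hHg, fun q J hq => h11 ℓ Φ U ctx g Hg hg hHg q J hq⟩

end Top

/-! ## 4. The cyclic step: the leaves of helper616 follow from the core forms -/

section Cyclic

variable {K K' : Type} [Field K] [NumberField K] [Field K'] [NumberField K'] [Algebra K K']

/-- The context of the upstairs part. -/
theorem ctxU_of675 {ℓ : ℕ} {Φ : HeckeEigensystem K' ℂ} {Dt : L2Data K K'}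
    (c : Ctx616 K K' ℓ Φ Dt) : CtxU675 K' ℓ Φ (H29.upOf Dt) :=
  ⟨c.cyc.prime, H29.totCplx_of_base c.cplx, c.cusp, H29.isUpData_upOf c.data,
    H29.baseStableU_upOf c.stable⟩

/-- **`CM616.FinDimC616` from the core form.** -/
theorem finDimC616_of_U675 (h : FinDimUC675 K') : FinDimC616 K K' :=
  fun ℓ Φ Dt c => h ℓ Φ (H29.upOf Dt) (ctxU_of675 c)

/-- **`CM616.NontrivC616` from the core form.** -/
theorem nontrivC616_of_U675 (h : NontrivUC675 K') : NontrivC616 K K' :=
  fun ℓ Φ Dt c => h ℓ Φ (H29.upOf Dt) (ctxU_of675 c)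

/-- **`CM616.StabGC616` from the core form.** -/
theorem stabGC616_of_U675 (h : StabGUC675 K') : StabGC616 K K' :=
  fun ℓ Φ Dt c => h ℓ Φ (H29.upOf Dt) (ctxU_of675 c)

/-- **`CM616.StabSC616` from the core form.** -/
theorem stabSC616_of_U675 (h : StabSUC675 K') : StabSC616 K K' :=
  fun ℓ Φ Dt c => h ℓ Φ (H29.upOf Dt) (ctxU_of675 c)

/-- **`CM616.CommGIC616` from the core form.** -/
theorem commGIC616_of_U675 (h : CommGIUC675 K') : CommGIC616 K K' :=
  fun ℓ Φ Dt c => h ℓ Φ (H29.upOf Dt) (ctxU_of675 c)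

/-- **`CM616.LocCommC616` from the core form.** -/
theorem locCommC616_of_U675 (h : LocCommUC675 K') : LocCommC616 K K' :=
  fun ℓ Φ Dt c => h ℓ Φ (H29.upOf Dt) (ctxU_of675 c)

/-- **`CM616.LocMoveC616` from the core form.** -/
theorem locMoveC616_of_U675 (h : LocMoveUC675 K') : LocMoveC616 K K' :=
  fun ℓ Φ Dt c => h ℓ Φ (H29.upOf Dt) (ctxU_of675 c)

/-- **`CM616.PowC616` from the core form.** -/
theorem powC616_of_U675 (h : PowUC675 K') : PowC616 K K' :=
  fun ℓ Φ Dt c => h ℓ Φ (H29.upOf Dt) (ctxU_of675 c)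

/-- **`CM616.SimpleC616` from the core form.** -/
theorem simpleC616_of_U675 (h : SimpleUC675 K') : SimpleC616 K K' :=
  fun ℓ Φ Dt c => h ℓ Φ (H29.upOf Dt) (ctxU_of675 c)

/-- **`CM616.MulGC616` from the core form.** -/
theorem mulGC616_of_U675 (h : MulGUC675 K') : MulGC616 K K' :=
  fun ℓ Φ Dt c => h ℓ Φ (H29.upOf Dt) (ctxU_of675 c)

/-- **`CM616.DictC616` from the core form.** -/
theorem dictC616_of_U675 (h : DictUC675 K') : DictC616 K K' :=
  fun ℓ Φ Dt c => h ℓ Φ (H29.upOf Dt) (ctxU_of675 c)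

/-- **`SU736.ClassModelC` (cyclic step) from the eleven core leaves.** -/
theorem classModelC_of_U675 (h01 : FinDimUC675 K') (h02 : NontrivUC675 K') (h03 : StabGUC675 K') (h04 : StabSUC675 K') (h05 : CommGIUC675 K') (h06 : LocCommUC675 K') (h07 : LocMoveUC675 K') (h08 : PowUC675 K') (h09 : SimpleUC675 K') (h10 : MulGUC675 K') (h11 : DictUC675 K') :
    SU736.ClassModelC K K' :=
  SU736.classModelC_of_U (classModelUC_of675 h01 h02 h03 h04 h05 h06 h07 h08 h09 h10 h11)

end Cyclic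

/-! ## Appendix: the equation lemmas of the definitions of this file are realised HERE -/

theorem eqns_realised_classModelU675 : True := by
  have _a0_1 := @clsU675.eq_1
  have _a0_2 := @clsU675.eq_def
  have _a0_3 := @clsU675.eq_unfold
  have _a1_1 := @gSetU675.eq_1
  have _a1_2 := @gSetU675.eq_def
  have _a1_3 := @gSetU675.eq_unfold
  have _a2_1 := @iSetU675.eq_1
  have _a2_2 := @iSetU675.eq_def
  have _a2_3 := @iSetU675.eq_unfold
  have _a3_1 := @sOpU675.eq_1
  have _a3_2 := @sOpU675.eq_def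
  have _a3_3 := @sOpU675.eq_unfold
  have _a4_1 := @sInvOpU675.eq_1
  have _a4_2 := @sInvOpU675.eq_def
  have _a4_3 := @sInvOpU675.eq_unfold
  have _a5_1 := @FinDimUC675.eq_1
  have _a5_2 := @FinDimUC675.eq_def
  have _a5_3 := @FinDimUC675.eq_unfold
  have _a6_1 := @NontrivUC675.eq_1
  have _a6_2 := @NontrivUC675.eq_def
  have _a6_3 := @NontrivUC675.eq_unfold
  have _a7_1 := @StabGUC675.eq_1
  have _a7_2 := @StabGUC675.eq_def
  have _a7_3 := @StabGUC675.eq_unfold
  have _a8_1 := @StabSUC675.eq_1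
  have _a8_2 := @StabSUC675.eq_def
  have _a8_3 := @StabSUC675.eq_unfold
  have _a9_1 := @CommGIUC675.eq_1
  have _a9_2 := @CommGIUC675.eq_def
  have _a9_3 := @CommGIUC675.eq_unfold
  have _a10_1 := @LocCommUC675.eq_1
  have _a10_2 := @LocCommUC675.eq_def
  have _a10_3 := @LocCommUC675.eq_unfold
  have _a11_1 := @LocMoveUC675.eq_1
  have _a11_2 := @LocMoveUC675.eq_def
  have _a11_3 := @LocMoveUC675.eq_unfold
  have _a12_1 := @PowUC675.eq_1
  have _a12_2 := @PowUC675.eq_def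
  have _a12_3 := @PowUC675.eq_unfold
  have _a13_1 := @SimpleUC675.eq_1
  have _a13_2 := @SimpleUC675.eq_def
  have _a13_3 := @SimpleUC675.eq_unfold
  have _a14_1 := @MulGUC675.eq_1
  have _a14_2 := @MulGUC675.eq_def
  have _a14_3 := @MulGUC675.eq_unfold
  have _a15_1 := @DictUC675.eq_1
  have _a15_2 := @DictUC675.eq_def
  have _a15_3 := @DictUC675.eq_unfold
  trivial

end Fermat.Agent.LT.T7.CMU675

end
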