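import Fermat.Agent.LT.T7.H675.BlocksU
import Fermat.Agent.LT.T7.H675.ClassModelU
import Fermat.Agent.LT.T7.H16.OpsAdj561
import Fermat.Agent.LT.T7.H16.OpsLink561
import Fermat.Agent.LT.T7.H276.IwSys
import Fermat.Agent.LT.T7.H276.OpsRel
import Fermat.Agent.LT.T7.H271.Phi

/-!
# Row LT, tower T7, registry 2152 (helper675): SIX LEAVES OF THE CUTS UNDER `UpBasisUC` AND
# `ClassModelUC`, CLOSED IN CORE FORM (ports of the closed cyclic leaves)

OFF-MAIN.  UNCONDITIONAL.  No hole, nothing assumed.  ADDITIVE (new names ending in `675`).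

    opsAdjUC675_closed      : UB675.OpsAdjUC675 K'       (port of helper16  `opsAdjC561_16`)
    opsLinkUC675_closed     : UB675.OpsLinkUC675 K'      (port of helper16  `opsLinkC561_16`)
    iwSysExistsUC675_closed : UB675.IwSysExistsUC675 K'  (port of helper276 `iwSysExistsC276`)
    opsRelUC675_closed      : UB675.OpsRelUC675 K'       (port of helper276 `opsRelC276`)
    phiUC675_closed         : UB675.PhiUC675 K'          (port of helper271 `phiC271`)
    nontrivUC675_closed     : CMU675.NontrivUC675 K'     (CM.02 = the same statement)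

Each proof is the adapter of the owner after the renaming `Dt ↦ U`; the one-field lemmas of the
owners (`H16.cosetOp_symm16`, `H16.innerD_translate16`, `H16.isIwCosetSystem_link16`,
`H276.exists_iwSys_at276`, `H276.quad_rel276`, `H271.inLevelGroup_of_iw271`, …) are used as they
are.
-/

set_option autoImplicit false
set_option linter.unusedSectionVars false

open AutomorphicForm IsDedekindDomain NumberField MeasureTheory
open IsDedekindDomain.HeightOneSpectrum

noncomputable section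

namespace Fermat.Agent.LT.T7.UB675

open Fermat.Agent.LT.H556 Fermat.Agent.LT.H556.A0 Fermat.Agent.LT.T5 Fermat.Agent.LT.H129
open Fermat.Agent.LT.T7 Fermat.Agent.LT.T7.H561

attribute [local instance] Fermat.Agent.LT.T5.instMeasurableSpaceG

variable (K' : Type) [Field K'] [NumberField K']

/-- **Leaf B4.6 `OpsAdj`, core form, CLOSED** (port of `H16.opsAdjC561_16`, helper16). -/
theorem opsAdjUC675_closed : OpsAdjUC675 K' := by
  intro ℓ Φ U hs Hs ω hsys j ψ χ hψ hχ
  have hU := hs.data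
  have hF : IsFrame U.R'.μ U.R'.F := hU.frame'.frame
  have hr : IsRayGen U.R'.r := hU.frame'.ray
  have hcyc : IsCyclicOfDegree U.s U.l U.k := hU.cyc
  have hN := T1.H309.adNormC309 (K := K')
  obtain ⟨i, hi, e⟩ := H16.orbit_mem16 U.s U.l U.k hcyc U.o hU.orbit_rel j
  have hi' : i < ℓ := by rw [← hU.deg]; exact hi
  have hAψ := H16.isAutBdd16_of_cusp hψ.cusp
  have hAχ := H16.isAutBdd16_of_cusp hχ.cusp
  refine ⟨?_, ?_⟩
  · refine H16.cosetOp_symm16 (w := U.o j) hN hF hr hAψ hAχ (H16.iwInv_local16 hψ.iw hi' e)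
      (H16.iwInv_local16 hχ.iw hi' e) (Hs j) fun h hh => ⟨hsys.Hs_local j h hh, ?_⟩
    obtain ⟨a, ha, hc⟩ := hsys.Hs_comp j h hh
    rw [hc]
    exact H16.isJ16_weylRep ((HeightOneSpectrum.mem_adicCompletionIntegers _ _ _).1 ha)
  · exact H16.innerD_translate16 hN hF hr hAψ hAχ (ω j)

/-- **Leaf B4.8 `OpsLink`, core form, CLOSED** (port of `H16.opsLinkC561_16`, helper16). -/
theorem opsLinkUC675_closed : OpsLinkUC675 K' := by
  intro ℓ Φ U _ Hs ω hsys
  exact H16.isIwCosetSystem_link16 (U.o 0) (Hs 0) (ω 0) (hsys.ω_local 0) (hsys.ω_comp 0)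
    (hsys.Hs_card 0) (hsys.Hs_local 0) (hsys.Hs_comp 0) (hsys.Hs_inj 0)

/-- **Leaf B4.1 `IwSysExists`, core form, CLOSED** (port of `H276.iwSysExistsC276`,
helper276). -/
theorem iwSysExistsUC675_closed : IwSysExistsUC675 K' := by
  intro ℓ Φ U _
  choose H ω h1 h2 h3 h4 h5 h6 using
    fun w : HeightOneSpectrum (𝓞 K') => H276.exists_iwSys_at276 w
  exact ⟨fun j => H (U.o j), fun j => ω (U.o j),
    { ω_local := fun j => h1 (U.o j)
      ω_comp := fun j => h2 (U.o j)
      Hs_card := fun j => h3 (U.o j)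
      Hs_local := fun j => h4 (U.o j)
      Hs_comp := fun j => h5 (U.o j)
      Hs_inj := fun j => h6 (U.o j) }⟩

variable {K'}

theorem cyc_of_setupU675 {ℓ : ℕ} {Φ : HeckeEigensystem K' ℂ} {U : H29.UpData K'}
    (hs : IsSetupU675 ℓ Φ U) : T5.IsCyclicOfDegree U.s ℓ U.k := by
  have h := hs.data.cyc
  have hd := hs.data.deg
  rw [← hd]
  exact h

/-- The functions of `W` are invariant under the local Iwahori elements at every place of the
orbit (port of `H276.wfn_inv_local276`). -/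
theorem wfn_inv_localU675 {ℓ : ℕ} {Φ : HeckeEigensystem K' ℂ} {U : H29.UpData K'}
    (hs : IsSetupU675 ℓ Φ U) {ψ : G K' → ℂ}
    (hψ : IsWFn U.𝔑₀ U.R'.r ℓ U.o ψ) (j : ℕ) (u : G K') (hu : IsLocalAtFin (U.o j) u)
    (hI : T5.InIwahori (U.o j) u) (x : G K') : ψ (x * u) = ψ x := by
  obtain ⟨j₀, hj₀, e⟩ :=
    H276.orbit_mem276 U.s ℓ U.k (cyc_of_setupU675 hs) U.o hs.data.orbit_rel j
  rw [e] at hu hI
  exact H276.iwInv_local276 hψ.iw hj₀ hu hI x

variable (K')

/-- **Leaf B4.3 `OpsRel`, core form, CLOSED** (port of `H276.opsRelC276`, helper276). -/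
theorem opsRelUC675_closed : OpsRelUC675 K' := by
  intro ℓ Φ U hs Hs ω hsys j ψ hψ x
  have hH : H276.IsSys276 (U.o j) (Hs j) :=
    ⟨hsys.Hs_card j, hsys.Hs_local j, hsys.Hs_comp j, hsys.Hs_inj j⟩
  constructor
  · have h := H276.quad_rel276 hH (wfn_inv_localU675 hs hψ j) x
    rw [H276.absNorm_orbit276 U.s U.o hs.data.orbit_rel j] at h
    exact h
  · obtain ⟨c, -, hω⟩ := hsys.ω_comp j
    have hz : finComp (U.o j) (ω j * ω j) = Matrix.diagonal (fun _ => c) := by
      rw [H276.finComp_mul276, hω, H276.omega_sq276]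
    have hcen := H276.central_of_scalar276 (U.o j)
      (isLocalAtFin_mul129 (hsys.ω_local j) (hsys.ω_local j)) hz
    show ∑ h ∈ Hs j, ψ (x * ω j * ω j * h) = ∑ h ∈ Hs j, ψ (x * h * ω j * ω j)
    refine Finset.sum_congr rfl (fun h _ => ?_)
    have e : x * ω j * ω j * h = x * h * ω j * ω j := by
      rw [mul_assoc x (ω j) (ω j), mul_assoc x (ω j * ω j) h, hcen h, ← mul_assoc, ← mul_assoc]
    rw [e]

/-- **Leaf B5 `Phi`, core form, CLOSED** (port of `H271.phiC271`, helper271). -/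
theorem phiUC675_closed : PhiUC675 K' := by
  intro ℓ _ hcplx Φ hΦ U hU
  obtain ⟨φ, hφ⟩ := hΦ
  have hray : T5.IsRayGen U.R'.r := hU.frame'.ray
  refine ⟨φ, ⟨⟨⟨hφ.cont, hφ.bdd, ⟨fun γ g => hφ.left_inv γ g,
    fun u hu g => hφ.level_inv u (H271.inLevelGroup_mono271 hU.level_le hu) g, ?_,
    fun g => H271.ray_inv271 hφ hray g⟩, hφ.cuspidal⟩, hφ.arch_scalar, ?_⟩, ?_, ?_⟩, hφ.ne_zero⟩
  · -- trivial type
    intro w k hk g
    rw [hφ.arch_compact w k hk g]
    simp [T5.trivType]
  · -- Iwahori subgroups along the orbit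
    intro h hinf hfin hiw x
    exact hφ.level_inv h (H271.inLevelGroup_of_iw271 ℓ U.o hU.orbit_good hinf hfin hiw) x
  · -- Hecke eigenfunction outside the base level
    intro v hv
    have hv' : ¬ v.asIdeal ∣ Φ.level := fun hd =>
      hv (dvd_trans hd (Ideal.dvd_iff_le.2 hU.level_le))
    exact hφ.hecke v hv'
  · -- sphere means
    intro w d hd Y hY g
    exact hφ.mean_complex w (hcplx w) d hd Y hY g

/-- **Leaf CM.02 `Nontriv` of the cut of `ClassModelUC`, core form, CLOSED** (the statement of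
`PhiUC675` in the context `CMU675.CtxU675`). -/
theorem nontrivUC675_closed : CMU675.NontrivUC675 K' :=
  fun ℓ Φ U c => phiUC675_closed K' ℓ c.prime c.cplx Φ c.cusp U c.data

end Fermat.Agent.LT.T7.UB675

end
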