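import Fermat.Agent.LT.T7.H675.BlocksU
import Fermat.Agent.LT.T7.H16.OpsEig561
import Fermat.Agent.LT.T7.H929.OpsComm
import Fermat.Agent.LT.T7.H346.OpsPer
import Fermat.Agent.LT.T7.H215.OpsSig

/-!
# Row LT, tower T7, registry 2152 (helper675): FOUR MORE LEAVES OF THE CUT UNDER `OpsUC675`,
# CLOSED IN CORE FORM (ports of the closed cyclic leaves)

OFF-MAIN.  UNCONDITIONAL.  No hole, nothing assumed.  ADDITIVE (new names ending in `675`).

    opsEigUC675_closed  : UB675.OpsEigUC675 K'    (port of helper16  `opsEigC561_16`)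
    opsCommUC675_closed : UB675.OpsCommUC675 K'   (port of helper929 `opsCommC929`)
    opsPerUC675_closed  : UB675.OpsPerUC675 K'    (port of helper346 `opsPerC346`)
    opsSigUC675_closed  : UB675.OpsSigUC675 K'    (port of helper215 `opsSigC215`)

Each proof is the adapter of the owner after the renaming `Dt ↦ U`; the one-field lemmas of the
owners are used as they are.
-/

set_option autoImplicit false
set_option linter.unusedSectionVars false

open AutomorphicForm IsDedekindDomain NumberField MeasureTheory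
open IsDedekindDomain.HeightOneSpectrum

noncomputable section

namespace Fermat.Agent.LT.T7.UB675

open Fermat.Agent.LT.H556 Fermat.Agent.LT.H556.A0 Fermat.Agent.LT.T5 Fermat.Agent.LT.H129
open Fermat.Agent.LT.T7 Fermat.Agent.LT.T7.H561

attribute [local instance] Fermat.Agent.LT.T5.instMeasurableSpaceG

variable (K' : Type) [Field K'] [NumberField K']

/-- **Leaf B4.2 `OpsEig`, core form, CLOSED** (port of `H16.opsEigC561_16`, helper16). -/
theorem opsEigUC675_closed : OpsEigUC675 K' := by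
  intro ℓ Φ U hs Hs ω hsys j ψ C hψ
  have hU := hs.data
  have hr : IsRayGen U.R'.r := hU.frame'.ray
  have hcyc : IsCyclicOfDegree U.s U.l U.k := hU.cyc
  obtain ⟨i, hi, e⟩ := H16.orbit_mem16 U.s U.l U.k hcyc U.o hU.orbit_rel j
  have hi' : i < ℓ := by rw [← hU.deg]; exact hi
  have hu : (U.o j).asIdeal ∣ U.𝔑₀ := (hU.mem_S' _).1 (hU.orbit_level j)
  have hpre := H439.isPre_of_eig439 hψ
  have hψI : ∀ k : G K', IsLocalAtFin (U.o j) k → InIwahori (U.o j) k →
      ∀ x : G K', ψ (x * k) = ψ x := H16.iwInv_local16 hψ.inv.iw hi' e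
  have hlink := (H16.isIwCosetSystem_link16 (U.o j) (Hs j) (ω j) (hsys.ω_local j)
    (hsys.ω_comp j) (hsys.Hs_card j) (hsys.Hs_local j) (hsys.Hs_comp j) (hsys.Hs_inj j)).1
  have hjI : ∀ k : G K', (∀ j' < ℓ, InIwahori (U.o j') k) → InIwahori (U.o j) k := by
    intro k hk
    rw [e]
    exact hk i hi'
  refine ⟨?_, ?_⟩
  · have hpreS : H439.IsPre439 U.𝔑₀ U.R'.r C (cosetOp (Hs j) ψ) := by
      have e1 : cosetOp (Hs j) ψ = ∑ h ∈ Hs j, fun x => ψ (x * h) := by
        funext x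
        show ∑ h ∈ Hs j, ψ (x * h) = (∑ h ∈ Hs j, fun x => ψ (x * h)) x
        rw [Finset.sum_apply]
      rw [e1]
      exact H439.isPre_sum439 _ _ fun h hh =>
        H439.isPre_translate439 hpre hr hu (hsys.Hs_local j h hh)
    refine H439.isEig_of_pre439 hpreS (fun k hk x => ?_) ?_
    · exact H16.cosetOp_inv16 (hsys.ω_local j) (hsys.ω_comp j) (hsys.Hs_local j) hlink hψI
        (H439.inIwahori_of_level439 hu hk)
        (fun k' h1 h2 h3 g => hψ.inv.cusp.aut.level_inv k'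
          (H16.inLevelGroup_away16 hk h1 h2 h3) g) x
    · intro k hkinf hkout hkI x
      exact H16.cosetOp_inv16 (hsys.ω_local j) (hsys.ω_comp j) (hsys.Hs_local j) hlink hψI
        (hjI k hkI)
        (fun k' h1 h2 h3 g => H16.iwCond_away16 hψ.inv.iw hkinf hkout hkI h1 h2 h3 g) x
  · have hpreR : H439.IsPre439 U.𝔑₀ U.R'.r C (H561.trOp561 (ω j) ψ) :=
      H439.isPre_translate439 hpre hr hu (hsys.ω_local j)
    refine H439.isEig_of_pre439 hpreR (fun k hk x => ?_) ?_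
    · exact H16.trOp_inv16 (hsys.ω_local j) (hsys.ω_comp j) hψI
        (H439.inIwahori_of_level439 hu hk)
        (fun k' h1 h2 h3 g => hψ.inv.cusp.aut.level_inv k'
          (H16.inLevelGroup_away16 hk h1 h2 h3) g) x
    · intro k hkinf hkout hkI x
      exact H16.trOp_inv16 (hsys.ω_local j) (hsys.ω_comp j) hψI (hjI k hkI)
        (fun k' h1 h2 h3 g => H16.iwCond_away16 hψ.inv.iw hkinf hkout hkI h1 h2 h3 g) x

/-- **Leaf B4.4 `OpsComm`, core form, CLOSED** (port of `H929.opsCommC929`, helper929). -/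
theorem opsCommUC675_closed : OpsCommUC675 K' := by
  intro ℓ Φ U hs Hs ω hsys j j' hj hj' hjj ψ x
  have hne : U.o j ≠ U.o j' :=
    H929.orbit_ne929 U.s U.o ℓ hs.data.orbit_rel hs.data.orbit_ne hj hj' hjj
  have cHH : ∀ h ∈ Hs j, ∀ h' ∈ Hs j', h * h' = h' * h := fun h hh h' hh' =>
    H929.comm_of_local929 hne (hsys.Hs_local j h hh) (hsys.Hs_local j' h' hh')
  have cHω : ∀ h ∈ Hs j, h * ω j' = ω j' * h := fun h hh =>
    H929.comm_of_local929 hne (hsys.Hs_local j h hh) (hsys.ω_local j')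
  have cωω : ω j * ω j' = ω j' * ω j :=
    H929.comm_of_local929 hne (hsys.ω_local j) (hsys.ω_local j')
  refine ⟨?_, ?_, ?_⟩
  · show ∑ h ∈ Hs j, ∑ h' ∈ Hs j', ψ (x * h * h') = ∑ h' ∈ Hs j', ∑ h ∈ Hs j, ψ (x * h' * h)
    rw [Finset.sum_comm]
    refine Finset.sum_congr rfl fun h' hh' => Finset.sum_congr rfl fun h hh => ?_
    rw [mul_assoc, mul_assoc, cHH h hh h' hh']
  · show ∑ h ∈ Hs j, ψ (x * h * ω j') = ∑ h ∈ Hs j, ψ (x * ω j' * h)
    refine Finset.sum_congr rfl fun h hh => ?_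
    rw [mul_assoc, mul_assoc, cHω h hh]
  · show ψ (x * ω j * ω j') = ψ (x * ω j' * ω j)
    rw [mul_assoc, mul_assoc, cωω]

/-! ### OPS-PER -/

section Per

variable {K'}

theorem pos_U675 {ℓ : ℕ} {Φ : HeckeEigensystem K' ℂ} {U : H29.UpData K'}
    (hU : H29.IsUpData ℓ Φ U) : 0 < ℓ := by
  rw [← hU.deg]
  exact hU.cyc.pos

/-- `o (j + ℓ) = o j`. -/
theorem orbit_add_U675 {ℓ : ℕ} {Φ : HeckeEigensystem K' ℂ} {U : H29.UpData K'}
    (hU : H29.IsUpData ℓ Φ U) (j : ℕ) : U.o (j + ℓ) = U.o j := by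
  have h := T5.H415.orbit_period415 U.s U.l U.k hU.cyc (fun n => U.o (j + n))
    (fun n => hU.orbit_rel (j + n))
  rw [hU.deg] at h
  simpa using h

/-- `o j = o (j mod ℓ)`. -/
theorem orbit_mod_U675 {ℓ : ℕ} {Φ : HeckeEigensystem K' ℂ} {U : H29.UpData K'}
    (hU : H29.IsUpData ℓ Φ U) (j : ℕ) : U.o j = U.o (j % ℓ) := by
  have key : ∀ m r : ℕ, U.o (r + ℓ * m) = U.o r := by
    intro m
    induction m with
    | zero => intro r; simp
    | succ m ih =>
      intro r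
      rw [Nat.mul_succ, ← add_assoc, orbit_add_U675 hU, ih]
  conv_lhs => rw [← Nat.mod_add_div j ℓ]
  exact key _ _

/-- A function invariant under the Iwahori subgroups along the orbit is invariant under the
Iwahori subgroup at `o j` for EVERY `j`. -/
theorem iwInv_at_U675 {ℓ : ℕ} {Φ : HeckeEigensystem K' ℂ} {U : H29.UpData K'}
    (hU : H29.IsUpData ℓ Φ U) {ψ : G K' → ℂ} (hψ : IsIwInv ℓ U.o ψ) (j : ℕ) (g : G K')
    (hl : IsLocalAtFin (U.o j) g) (hI : T5.InIwahori (U.o j) g) (x : G K') :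
    ψ (x * g) = ψ x := by
  refine hψ g hl.1 ?_ ?_ x
  · intro v hv
    apply hl.2
    rw [orbit_mod_U675 hU j]
    exact hv (j % ℓ) (Nat.mod_lt _ (pos_U675 hU))
  · intro j' _
    by_cases e : U.o j' = U.o j
    · rw [e]
      exact hI
    · exact H346.inIwahori_of_triv346 _ (hl.2 _ e)

end Per

/-- **Leaf B4.5 `OpsPer`, core form, CLOSED** (port of `H346.opsPerC346`, helper346). -/
theorem opsPerUC675_closed : OpsPerUC675 K' := by
  intro ℓ Φ U hs Hs ω hsys j ψ hψ x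
  have hU := hs.data
  have hper : U.o (j + ℓ) = U.o j := orbit_add_U675 hU j
  have hinv : ∀ g : G K', IsLocalAtFin (U.o j) g → T5.InIwahori (U.o j) g →
      ∀ x : G K', ψ (x * g) = ψ x := fun g hl hI x => iwInv_at_U675 hU hψ.iw j g hl hI x
  constructor
  · exact H346.cosetOp_indep_eq346 (U.o j) (U.o (j + ℓ)) hper
      ⟨hsys.Hs_card j, hsys.Hs_local j, hsys.Hs_comp j, hsys.Hs_inj j⟩
      ⟨hsys.Hs_card (j + ℓ), hsys.Hs_local (j + ℓ), hsys.Hs_comp (j + ℓ), hsys.Hs_inj (j + ℓ)⟩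
      ψ hinv x
  · exact H346.trOp_indep_eq346 (U.o j) (U.o (j + ℓ)) hper
      ⟨hsys.ω_local j, hsys.ω_comp j⟩ ⟨hsys.ω_local (j + ℓ), hsys.ω_comp (j + ℓ)⟩ ψ hinv x

/-- **Leaf B4.7 `OpsSig`, core form, CLOSED** (port of `H215.opsSigC215`, helper215). -/
theorem opsSigUC675_closed : OpsSigUC675 K' := by
  intro ℓ Φ U hs _ Hs ω hsys j ψ hψ x
  have hU := hs.data
  have hcyc : IsCyclicOfDegree U.s ℓ U.k := by
    have h1 := hU.cyc
    rw [hU.deg] at h1
    exact h1
  have hrel := hU.orbit_rel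
  have hinv : ∀ u : G K', IsLocalAtFin (U.o j) u → InIwahori (U.o j) u →
      ∀ y : G K', ψ (y * u) = ψ y :=
    fun u hu hI y => H215.iwInv_local215 U.s ℓ U.k hcyc U.o hrel ψ hψ.iw j u hu hI y
  constructor
  · show ∑ h ∈ Hs j, ψ (U.s.onGinv x * h)
      = ∑ h ∈ Hs (j + 1), ψ (U.s.onGinv (x * h))
    simp only [map_mul]
    refine H215.cosetSum_eq215 (U.o j) (Hs j) (Hs (j + 1)) (fun h => U.s.onGinv h)
      (hsys.Hs_card j) ?_ (hsys.Hs_comp j) (hsys.Hs_local j) (hsys.Hs_inj j) ?_ ?_ ?_ ψ hinv _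
    · rw [hsys.Hs_card (j + 1)]
      exact H215.absNorm_placeRel215 U.s _ _ (hrel j)
    · intro h hh
      obtain ⟨a, ha, hM⟩ := hsys.Hs_comp (j + 1) h hh
      exact H215.finComp_onGinv_s215 U.s _ _ (hrel j) h a ha hM
    · intro h hh
      exact H215.isLocalAtFin_onGinv215 U.s _ _ (hrel j) h (hsys.Hs_local (j + 1) h hh)
    · intro h₁ hh₁ h₂ hh₂ hne hI
      apply hsys.Hs_inj (j + 1) h₁ hh₁ h₂ hh₂ hne
      have e : (U.s.onGinv h₁)⁻¹ * U.s.onGinv h₂ = U.s.onGinv (h₁⁻¹ * h₂) := by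
        rw [map_mul, map_inv]
      have hI' : InIwahori (U.o j) (U.s.onGinv (h₁⁻¹ * h₂)) := by
        rw [← e]
        exact hI
      exact (H215.inIwahori_onGinv215 U.s _ _ (hrel j) _).1 hI'
  · show ψ (U.s.onGinv x * ω j) = ψ (U.s.onGinv (x * ω (j + 1)))
    rw [map_mul]
    obtain ⟨c, hc, hM⟩ := hsys.ω_comp j
    obtain ⟨c₁, hc₁, hM₁⟩ := hsys.ω_comp (j + 1)
    obtain ⟨b, hb, hMb⟩ := H215.finComp_onGinv_w215 U.s _ _ (hrel j) (ω (j + 1)) c₁ hc₁ hM₁
    have hcne : c ≠ 0 := by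
      rintro rfl
      rw [map_zero] at hc
      exact WithZero.exp_ne_zero hc.symm
    have hu := H215.finComp_inv_mul_w215 (U.o j) (ω j) (U.s.onGinv (ω (j + 1))) c b hcne hM hMb
    have he : Valued.v (c⁻¹ * b) = 1 := by
      rw [map_mul, map_inv₀, hc, hb]
      exact inv_mul_cancel₀ WithZero.exp_ne_zero
    have hI := H215.inIwahori_diag215 (U.o j) _ _ he hu
    have hloc := H215.isLocalAtFin_inv_mul215 (U.o j) (ω j) (U.s.onGinv (ω (j + 1)))
      (hsys.ω_local j) (H215.isLocalAtFin_onGinv215 U.s _ _ (hrel j) _ (hsys.ω_local (j + 1)))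
    have h1 := hinv _ hloc hI (U.s.onGinv x * ω j)
    rw [← h1]
    congr 1
    group

end Fermat.Agent.LT.T7.UB675

end
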